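import Fermat.Agent.Irred35.RatPoints

/-!
# The fibre product of the `j`-line covers of levels `3` and `5`

Its rational points have level `5` parameter `-25/8`, `-25/2`, `-10` or `-40` (`fibre_product`),
by reduction to `Irred35.RatPoints`. Used by S51.
-/

namespace FLTAgent.Irred35

lemma not_isSquare_five : ¬ IsSquare (5 : ℚ) := by
  rw [show (5 : ℚ) = ((5 : ℕ) : ℚ) by norm_num, Rat.isSquare_natCast_iff]
  rintro ⟨r, hr⟩
  have : r ≤ 2 := by nlinarith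
  interval_cases r <;> omega

lemma quad_ne_zero (u : ℚ) : u ^ 2 + 10 * u + 5 ≠ 0 := fun h =>
  not_isSquare_five ⟨(u + 5) / 2, by field_simp; linear_combination -h⟩

lemma quad_ne_zero' (u : ℚ) : u ^ 2 + 4 * u - 1 ≠ 0 := fun h =>
  not_isSquare_five ⟨u + 2, by linear_combination -h⟩

/-- Rational solutions of `(t+27)(t+3)³/t = (u²+10u+5)³/u`. -/
theorem fibre_product {t u : ℚ} (ht : t ≠ 0) (hu : u ≠ 0)
    (hF : (t + 27) * (t + 3) ^ 3 * u = (u ^ 2 + 10 * u + 5) ^ 3 * t) :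
    u = -(25 / 8) ∨ u = -(25 / 2) ∨ u = -10 ∨ u = -40 := by
  have hK := quad_ne_zero u
  have hD := quad_ne_zero' u
  have hs : t + 3 ≠ 0 := by
    intro h
    rw [h] at hF
    simp [hK, ht] at hF
  set r : ℚ := (u ^ 2 + 10 * u + 5) / (t + 3) with hr'
  have hr : r * (t + 3) = u ^ 2 + 10 * u + 5 := div_mul_cancel₀ _ hs
  have hG : 3 * r ^ 4 - (u ^ 2 + 10 * u + 5) * r ^ 3 + 24 * u * r +
      u * (u ^ 2 + 10 * u + 5) = 0 := by
    rw [hr']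
    field_simp
    linear_combination (u ^ 2 + 10 * u + 5) * hF
  obtain ⟨z, hz⟩ : ∃ z : ℚ, z * (u ^ 2 + 4 * u - 1) =
    ((-5 + 8 * u + 17 * u ^ 2) + (-4 + 40 * u + 4 * u ^ 2) * r +
      (8 + 40 * u + 4 * u ^ 2) * r ^ 2 - 12 * r ^ 3) :=
    ⟨_, div_mul_cancel₀ _ hD⟩
  obtain ⟨w, hw⟩ : ∃ w : ℚ, w * (u ^ 2 + 4 * u - 1) =
    ((-20 + 108 * u + 112 * u ^ 2 + 8 * u ^ 3) + (4 + 176 * u + 20 * u ^ 2) * r +
      (120 * u + 12 * u ^ 2) * r ^ 2 - 36 * r ^ 3) :=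
    ⟨_, div_mul_cancel₀ _ hD⟩
  have e1 : (u ^ 2 + 4 * u - 1) * ((-20 + 108 * u + 112 * u ^ 2 + 8 * u ^ 3) +
    (4 + 176 * u + 20 * u ^ 2) * r +
      (120 * u + 12 * u ^ 2) * r ^ 2 - 36 * r ^ 3) ^ 2 -
      ((-5 + 8 * u + 17 * u ^ 2) + (-4 + 40 * u + 4 * u ^ 2) * r +
      (8 + 40 * u + 4 * u ^ 2) * r ^ 2 - 12 * r ^ 3) *
        (((-5 + 8 * u + 17 * u ^ 2) + (-4 + 40 * u + 4 * u ^ 2) * r +
      (8 + 40 * u + 4 * u ^ 2) * r ^ 2 - 12 * r ^ 3) - 9 * (u ^ 2 + 4 * u - 1)) *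
      (((-5 + 8 * u + 17 * u ^ 2) + (-4 + 40 * u + 4 * u ^ 2) * r +
      (8 + 40 * u + 4 * u ^ 2) * r ^ 2 - 12 * r ^ 3) - 25 * (u ^ 2 + 4 * u - 1)) = 0 := by
    linear_combination (
      (128 + (-1152)*u + 704*u^2 + 8064*u^3 + 1408*u^4 + 64*u^5) +
      (704 + (-5632)*u + 9088*u^2 + 4096*u^3 + 320*u^4)*r +
      ((-576) + (-1344)*u + 18432*u^2 + 3840*u^3 + 192*u^4)*r^2 +
      (1024 + (-5120)*u + 5888*u^2 + 1280*u^3 + 64*u^4)*r^3 +
      ((-192) + (-3840)*u + (-384)*u^2)*r^4 +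
      (576)*r^5) * hG
  rw [← hz, ← hw] at e1
  have hE : w ^ 2 = z * (z - 9) * (z - 25) := by
    apply mul_left_cancel₀ (pow_ne_zero 3 hD)
    linear_combination e1
  have e2 : (576 * u ^ 2 + 3600 * u + 5625) * (u ^ 2 + 4 * u - 1) ^ 4 +
      (-64 * u ^ 2 + 32 * u - 3500) * ((-5 + 8 * u + 17 * u ^ 2) + (-4 + 40 * u + 4 * u ^ 2) * r +
      (8 + 40 * u + 4 * u ^ 2) * r ^ 2 - 12 * r ^ 3) * (u ^ 2 + 4 * u - 1) ^ 3 +
      (-48 * u + 750) * ((-5 + 8 * u + 17 * u ^ 2) + (-4 + 40 * u + 4 * u ^ 2) * r +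
      (8 + 40 * u + 4 * u ^ 2) * r ^ 2 - 12 * r ^ 3) ^ 2 * (u ^ 2 + 4 * u - 1) ^ 2 -
      60 * ((-5 + 8 * u + 17 * u ^ 2) + (-4 + 40 * u + 4 * u ^ 2) * r +
      (8 + 40 * u + 4 * u ^ 2) * r ^ 2 - 12 * r ^ 3) ^ 3 * (u ^ 2 + 4 * u - 1) +
        ((-5 + 8 * u + 17 * u ^ 2) + (-4 + 40 * u + 4 * u ^ 2) * r +
      (8 + 40 * u + 4 * u ^ 2) * r ^ 2 - 12 * r ^ 3) ^ 4 = 0 := by
    linear_combination (
      (512 + (-10240)*u + 65280*u^2 + (-174848)*u^3 + 191488*u^4 + (-17664)*u^5 + (-8960)*u^6 +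
        (-512)*u^7) +
      ((-2816) + 47872*u + (-221952)*u^2 + 336128*u^3 + (-206080)*u^4 + (-92928)*u^5 + (-9472)*u^6 +
        (-256)*u^7)*r +
      (9472 + (-101888)*u + 181248*u^2 + 494336*u^3 + (-408832)*u^4 + (-122880)*u^5 + (-10240)*u^6 +
        (-256)*u^7)*r^2 +
      ((-18688) + 104448*u + 62208*u^2 + (-598016)*u^3 + (-331776)*u^4 + (-47616)*u^5 +
        (-2048)*u^6)*r^3 +
      (26368 + (-88320)*u + 9216*u^2 + (-946432)*u^3 + (-299520)*u^4 + (-30720)*u^5 +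
        (-1024)*u^6)*r^4 +
      ((-22784) + 10752*u + 527616*u^2 + (-148480)*u^3 + (-71424)*u^4 + (-7680)*u^5 +
        (-256)*u^6)*r^5 +
      (16128 + (-46080)*u + 225792*u^2 + 46080*u^3 + 2304*u^4)*r^6 +
      ((-6912) + (-69120)*u + (-6912)*u^2)*r^7 +
      (6912)*r^8) * hG
  rw [← hz] at e2
  have hPhi : (576 - 64 * z) * u ^ 2 + (3600 + 32 * z - 48 * z ^ 2) * u +
      (5625 - 3500 * z + 750 * z ^ 2 - 60 * z ^ 3 + z ^ 4) = 0 := by
    apply mul_left_cancel₀ (pow_ne_zero 4 hD)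
    linear_combination e2
  rcases rational_points hE with h | h | h | h | h <;> rw [h] at hPhi
  · left
    have : (24 * u + 75) ^ 2 = 0 := by linear_combination hPhi
    linarith [pow_eq_zero_iff two_ne_zero |>.1 this]
  · norm_num at hPhi
  · right; left
    have : (2 * u + 25) ^ 2 = 0 := by linear_combination -hPhi / 256
    linarith [pow_eq_zero_iff two_ne_zero |>.1 this]
  · right; right; left
    have : u * (u + 10) = 0 := by linear_combination hPhi / 256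
    linarith [(mul_eq_zero.1 this).resolve_left hu]
  · right; right; right
    have : u * (u + 40) = 0 := by linear_combination -hPhi / 2304
    linarith [(mul_eq_zero.1 this).resolve_left hu]

end FLTAgent.Irred35
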