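import Mathlib.NumberTheory.PythagoreanTriples
import Mathlib.Data.ZMod.Basic
import Mathlib.Tactic

/-!
# Infinite descent for two squares

`C² + 16 e²` and `C² + 25 e²` are not simultaneously squares for coprime nonzero integers
`C`, `e` (`descent`). Used for the rational points in `Irred35.RatPoints`.
-/

namespace FLTAgent.Irred35

lemma four_numbers {P q R s : ℤ} (hP : P ≠ 0) (h : P * q = R * s) :
    ∃ a b c d : ℤ, P = a * b ∧ R = a * c ∧ q = c * d ∧ s = b * d ∧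
      IsCoprime b c := by
  have hg : Int.gcd P R ≠ 0 := fun h0 => hP (Int.gcd_eq_zero_iff.1 h0).1
  obtain ⟨b, c, hbc, hb, hc⟩ :=
    Int.exists_gcd_one (Nat.pos_of_ne_zero hg)
  set a : ℤ := (Int.gcd P R : ℤ) with ha
  have ha0 : a ≠ 0 := by rw [ha]; exact_mod_cast hg
  have hb0 : b ≠ 0 := by
    rintro rfl
    exact hP (by rw [hb]; simp)
  have h' : b * q = c * s := by
    apply mul_left_cancel₀ ha0
    rw [hb, hc] at h
    linear_combination h
  have hbc' : IsCoprime b c := Int.isCoprime_iff_gcd_eq_one.2 hbc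
  have hbs : b ∣ c * s := ⟨q, h'.symm⟩
  obtain ⟨d, hd⟩ := hbc'.dvd_of_dvd_mul_left hbs
  refine ⟨a, b, c, d, by rw [hb]; ring, by rw [hc]; ring, ?_, hd, hbc'⟩
  apply mul_left_cancel₀ hb0
  rw [h', hd]; ring

lemma sq_mul_eq_sq_mul {b c X Y : ℤ} (hb : b ≠ 0) (hbc : IsCoprime b c)
    (h : c ^ 2 * X = b ^ 2 * Y) : ∃ k : ℤ, X = k * b ^ 2 ∧ Y = k * c ^ 2 := by
  obtain ⟨k, hk⟩ := (hbc.pow (m := 2) (n := 2)).dvd_of_dvd_mul_left ⟨Y, h⟩
  refine ⟨k, by rw [hk]; ring, ?_⟩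
  apply mul_left_cancel₀ (pow_ne_zero 2 hb)
  rw [← h, hk]; ring

lemma dvd_nine {k x y : ℤ} (hxy : IsCoprime x y) (hx : k ∣ 9 * x ^ 2) (hy : k ∣ 9 * y ^ 2) :
    k = 1 ∨ k = 3 ∨ k = 9 ∨ k = -1 ∨ k = -3 ∨ k = -9 := by
  obtain ⟨u, v, huv⟩ := (hxy.pow (m := 2) (n := 2))
  have h9 : k ∣ 9 := by
    have := dvd_add (dvd_mul_of_dvd_right hx u) (dvd_mul_of_dvd_right hy v)
    have e : u * (9 * x ^ 2) + v * (9 * y ^ 2) = 9 := by linear_combination 9 * huv
    rwa [e] at this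
  have h1 : k.natAbs ∣ 9 := Int.natAbs_dvd_natAbs.2 h9
  have h2 : k.natAbs ∈ Nat.divisors 9 := Nat.mem_divisors.2 ⟨h1, by norm_num⟩
  have h3 : k.natAbs = 1 ∨ k.natAbs = 3 ∨ k.natAbs = 9 := by
    have e9 : Nat.divisors 9 = {1, 3, 9} := by decide
    simpa [e9] using h2
  omega

lemma not_three_dvd_both {x y : ℤ} (hxy : IsCoprime x y)
    (h : (x : ZMod 3) = 0 ∧ (y : ZMod 3) = 0) : False := by
  obtain ⟨h1, h2⟩ := h
  obtain ⟨u, v, huv⟩ := hxy
  have := congrArg (Int.cast : ℤ → ZMod 3) huv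
  simp [h1, h2] at this

lemma zmod3_sq_add_sq : ∀ x y : ZMod 3, x ^ 2 + y ^ 2 = 0 → x = 0 ∧ y = 0 := by decide

lemma zmod3_kill_neg : ∀ x y : ZMod 3, 5 * x ^ 2 - y ^ 2 = 0 → x = 0 ∧ y = 0 := by decide

lemma zmod8_kill : ∀ b c d : ZMod 8, 4 * c ≠ 0 → 4 * d ≠ 0 →
    ∀ k ∈ ([1, 3, 9, -1, -9] : List (ZMod 8)),
    5 * c ^ 2 - 16 * b ^ 2 ≠ k * d ^ 2 := by decide

lemma zmod8_kill' : ∀ b c d : ZMod 8, 4 * c ≠ 0 → 4 * d ≠ 0 → ∀ k ∈ ([1, 3, 9] : List (ZMod 8)),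
    5 * c ^ 2 + 16 * b ^ 2 ≠ k * d ^ 2 := by decide

lemma four_mul_odd_ne {x : ℤ} (hx : Odd x) : (4 : ZMod 8) * (x : ZMod 8) ≠ 0 := by
  obtain ⟨k, rfl⟩ := hx
  push_cast
  rw [show (4 : ZMod 8) * (2 * (k : ZMod 8) + 1) = 8 * (k : ZMod 8) + 4 by ring,
    show (8 : ZMod 8) = 0 from rfl, zero_mul, zero_add]
  decide

/-- A coprime pair `β, γ` with `γ` odd, `β² + γ²` and `16 β² + 25 γ²` squares, has `5 ∣ β`. -/
lemma five_dvd_of_aux {β γ α δ : ℤ} (hβ : β ≠ 0) (hβγ : IsCoprime β γ) (hγ : Odd γ)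
    (h1 : α ^ 2 = β ^ 2 + γ ^ 2) (h2 : δ ^ 2 = 16 * β ^ 2 + 25 * γ ^ 2) : (5 : ℤ) ∣ β := by
  by_contra h5
  have hc5 : IsCoprime β (5 : ℤ) := by
    rw [isCoprime_comm]
    exact (Prime.coprime_iff_not_dvd (Int.prime_iff_natAbs_prime.2 (by norm_num))).2 h5
  have hco : Int.gcd (5 * γ) (4 * β) = 1 := by
    rw [← Int.isCoprime_iff_gcd_eq_one]
    have h5γ : Odd (5 * γ) := (show Odd (5 : ℤ) by decide).mul hγ
    obtain ⟨k, hk⟩ := h5γ
    have e4 : IsCoprime (5 * γ) (4 : ℤ) := by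
      have e2 : IsCoprime (5 * γ) (2 : ℤ) := ⟨1, -k, by linear_combination hk⟩
      simpa using e2.pow_right (n := 2)
    exact e4.mul_right (hc5.symm.mul_left hβγ.symm)
  have hco' : Int.gcd γ β = 1 := Int.isCoprime_iff_gcd_eq_one.1 hβγ.symm
  have hγ0 : γ ≠ 0 := by rintro rfl; simp at hγ
  -- first triple
  have t1 : PythagoreanTriple (5 * γ) (4 * β) |δ| := by
    change _ = _
    rw [← abs_mul, abs_mul_self]
    linear_combination -h2
  have t2 : PythagoreanTriple γ β |α| := by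
    change _ = _
    rw [← abs_mul, abs_mul_self]
    linear_combination -h1
  have hδ0 : 0 < |δ| := abs_pos.2 (fun h => by
    subst h; nlinarith [sq_pos_of_ne_zero hβ, sq_nonneg γ])
  have hα0 : 0 < |α| := abs_pos.2 (fun h => by
    subst h; nlinarith [sq_pos_of_ne_zero hβ, sq_nonneg γ])
  obtain ⟨m, n, hx, hy, -, hmn, hpar, -⟩ :=
    t1.coprime_classification' hco (Int.odd_iff.1 ((show Odd (5 : ℤ) by decide).mul hγ)) hδ0
  obtain ⟨k, l, hx', hy', -, hkl, -, -⟩ :=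
    t2.coprime_classification' hco' (Int.odd_iff.1 hγ) hα0
  -- make `m` the even one
  obtain ⟨m', n', hm', hn', hmn', hprod, hsq⟩ : ∃ m' n' : ℤ, Even m' ∧ Odd n' ∧ Int.gcd m' n' = 1 ∧
      m' * n' = m * n ∧ (m' ^ 2 - n' ^ 2) ^ 2 = (m ^ 2 - n ^ 2) ^ 2 := by
    rcases hpar with ⟨hm, hn⟩ | ⟨hm, hn⟩
    · exact ⟨m, n, Int.even_iff.2 hm, Int.odd_iff.2 hn, hmn, rfl, rfl⟩
    · exact ⟨n, m, Int.even_iff.2 hn, Int.odd_iff.2 hm,
        by rwa [Int.gcd_comm], mul_comm _ _, by ring⟩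
  have hβkl : β = 2 * (k * l) := by rw [hy']; ring
  have hprod' : m' * n' = 4 * (k * l) := by
    rw [hprod]; linarith
  have h4 : (4 : ℤ) ∣ m' := by
    have : IsCoprime (4 : ℤ) n' := by
      obtain ⟨j, hj⟩ := hn'
      have e2 : IsCoprime (2 : ℤ) n' := ⟨-j, 1, by linear_combination hj⟩
      simpa using e2.pow_left (m := 2)
    exact this.dvd_of_dvd_mul_right ⟨k * l, hprod'⟩
  obtain ⟨M, rfl⟩ := h4
  have hM0 : M ≠ 0 := by
    rintro rfl
    apply hβ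
    rw [hβkl]; linarith
  obtain ⟨a, b, c, d, hM, hk, hn, hl, hbc⟩ :=
    four_numbers hM0 (show M * n' = k * l by linarith)
  subst hM hk hn hl
  rw [Int.odd_mul] at hn'
  have ha0 : a ≠ 0 := left_ne_zero_of_mul hM0
  have hb0 : b ≠ 0 := right_ne_zero_of_mul hM0
  have had : IsCoprime a d := by
    have := Int.isCoprime_iff_gcd_eq_one.2 hmn'
    exact this.of_mul_left_right.of_mul_left_left.of_mul_right_right
  have key : (5 * ((a * c) ^ 2 - (b * d) ^ 2)) ^ 2 = ((4 * (a * b)) ^ 2 - (c * d) ^ 2) ^ 2 := by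
    rw [hsq, ← hx, ← hx']
  have hc8 := four_mul_odd_ne hn'.1
  have hd8 := four_mul_odd_ne hn'.2
  rcases sq_eq_sq_iff_eq_or_eq_neg.1 key with e | e
  · obtain ⟨K, hK1, hK2⟩ := sq_mul_eq_sq_mul ha0 had
      (show d ^ 2 * (5 * b ^ 2 - c ^ 2) = a ^ 2 * (-(16 * b ^ 2) + 5 * c ^ 2) by
        linear_combination -e)
    have d1 : K ∣ 9 * b ^ 2 := ⟨5 * a ^ 2 + d ^ 2, by linear_combination 5 * hK1 + hK2⟩
    have d2 : K ∣ 9 * c ^ 2 := ⟨16 * a ^ 2 + 5 * d ^ 2, by linear_combination 16 * hK1 + 5 * hK2⟩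
    have hK' := congrArg (Int.cast : ℤ → ZMod 8) hK2
    push_cast at hK'
    rw [neg_add_eq_sub] at hK'
    rcases dvd_nine hbc d1 d2 with rfl | rfl | rfl | rfl | rfl | rfl
    case inr.inr.inr.inr.inl =>
      refine not_three_dvd_both hbc (zmod3_kill_neg _ _ ?_)
      have := congrArg (Int.cast : ℤ → ZMod 3) hK1
      push_cast at this
      rw [this, show (-3 : ZMod 3) = 0 from rfl, zero_mul]
    all_goals
      refine zmod8_kill (b : ZMod 8) (c : ZMod 8) (d : ZMod 8) hc8 hd8 _ ?_ hK'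
      decide
  · obtain ⟨K, hK1, hK2⟩ := sq_mul_eq_sq_mul ha0 had
      (show d ^ 2 * (c ^ 2 + 5 * b ^ 2) = a ^ 2 * (5 * c ^ 2 + 16 * b ^ 2) by
        linear_combination -e)
    have d1 : K ∣ 9 * b ^ 2 := ⟨5 * a ^ 2 - d ^ 2, by linear_combination 5 * hK1 - hK2⟩
    have d2 : K ∣ 9 * c ^ 2 := ⟨5 * d ^ 2 - 16 * a ^ 2, by linear_combination 5 * hK2 - 16 * hK1⟩
    have hpos : 0 < K := by
      by_contra hneg
      nlinarith [sq_pos_of_ne_zero hb0, sq_nonneg c,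
        mul_nonneg (neg_nonneg.2 (not_lt.1 hneg)) (sq_nonneg a)]
    have hK' := congrArg (Int.cast : ℤ → ZMod 8) hK2
    push_cast at hK'
    rcases dvd_nine hbc d1 d2 with rfl | rfl | rfl | rfl | rfl | rfl
    case inl => exact zmod8_kill' _ _ _ hc8 hd8 _ (by decide) hK'
    case inr.inl => exact zmod8_kill' _ _ _ hc8 hd8 _ (by decide) hK'
    case inr.inr.inl => exact zmod8_kill' _ _ _ hc8 hd8 _ (by decide) hK'
    all_goals omega

/-- There is no coprime solution with `|C e| < N`. -/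
private def NoneBelow (N : ℕ) : Prop :=
  ∀ C e A B : ℤ, (C * e).natAbs < N → C ≠ 0 → e ≠ 0 → IsCoprime C e →
    C ^ 2 + 16 * e ^ 2 = B ^ 2 → C ^ 2 + 25 * e ^ 2 = A ^ 2 → False

/-- The auxiliary system `β² + γ²`, `16 β² + 25 γ²` gives a smaller solution. -/
private lemma false_of_aux_system {N : ℕ} (ih : NoneBelow N) {β γ α δ : ℤ} (hβ : β ≠ 0)
    (hβγ : IsCoprime β γ) (hγ : Odd γ) (h1 : α ^ 2 = β ^ 2 + γ ^ 2)
    (h2 : δ ^ 2 = 16 * β ^ 2 + 25 * γ ^ 2) (hle : (β * γ).natAbs ≤ N) : False := by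
  obtain ⟨β', rfl⟩ := five_dvd_of_aux hβ hβγ hγ h1 h2
  have hγ0 : γ ≠ 0 := by rintro rfl; simp at hγ
  have hβ' : β' ≠ 0 := by rintro rfl; simp at hβ
  obtain ⟨δ', rfl⟩ : (5 : ℤ) ∣ δ :=
    Int.Prime.dvd_pow' (k := 2) (p := 5) (by norm_num) ⟨80 * β' ^ 2 + 5 * γ ^ 2, by
      rw [h2]; push_cast; ring⟩
  refine ih γ β' α δ' ?_ hγ0 hβ' hβγ.of_mul_left_right.symm ?_ ?_
  · have : (5 * β' * γ).natAbs = 5 * (γ * β').natAbs := by
      rw [show 5 * β' * γ = 5 * (γ * β') by ring, Int.natAbs_mul]; rfl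
    have : 0 < (γ * β').natAbs := Int.natAbs_pos.2 (mul_ne_zero hγ0 hβ')
    omega
  · apply mul_left_cancel₀ (show (25 : ℤ) ≠ 0 by norm_num)
    linear_combination -h2
  · linear_combination -h1

private lemma natAbs_mul_le {x y c : ℤ} (h : x ∣ y) (hy : y ≠ 0) :
    (x * c).natAbs ≤ (y * c).natAbs := by
  rw [Int.natAbs_mul, Int.natAbs_mul]
  exact Nat.mul_le_mul_right _ (Nat.le_of_dvd (Int.natAbs_pos.2 hy) (Int.natAbs_dvd_natAbs.2 h))

/-- A solution with `C` even gives a solution of the auxiliary system. -/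
private lemma false_of_even {C e A B c : ℤ} (ih : NoneBelow (C * e).natAbs) (hC : C ≠ 0)
    (hco : IsCoprime C e) (hB : C ^ 2 + 16 * e ^ 2 = B ^ 2) (hA : C ^ 2 + 25 * e ^ 2 = A ^ 2)
    (hc : C = c + c) : False := by
  obtain ⟨k, hk⟩ : ∃ k : ℤ, e = 2 * k + 1 := by
    rcases Int.even_or_odd e with ⟨k, hk⟩ | h
    · exfalso
      obtain ⟨u, v, huv⟩ := hco
      have : (2 : ℤ) ∣ 1 := ⟨u * c + v * k, by rw [← huv, hc, hk]; ring⟩
      norm_num at this
    · exact h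
  obtain ⟨c'', rfl⟩ : (2 : ℤ) ∣ c := by
    rcases Int.even_or_odd c with ⟨j, hj⟩ | ⟨j, hj⟩
    · exact ⟨j, by omega⟩
    · exfalso
      have h8 := congrArg (Int.cast : ℤ → ZMod 8) hA
      rw [hc, hj, hk] at h8
      push_cast at h8
      have key : ∀ j k a : ZMod 8,
          (2 * j + 1 + (2 * j + 1)) ^ 2 + 25 * (2 * k + 1) ^ 2 ≠ a ^ 2 := by decide
      exact key _ _ _ h8
  have hC4 : C = 4 * c'' := by rw [hc]; ring
  subst hC4
  obtain ⟨b, rfl⟩ : (4 : ℤ) ∣ B :=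
    (Int.pow_dvd_pow_iff two_ne_zero).1 ⟨c'' ^ 2 + e ^ 2, by rw [← hB]; ring⟩
  refine false_of_aux_system ih (β := c'') (γ := e) (α := b) (δ := A) (by simpa using hC)
      hco.of_mul_left_right ⟨k, hk⟩ ?_ ?_
    (natAbs_mul_le (dvd_mul_left _ _) hC)
  · apply mul_left_cancel₀ (show (16 : ℤ) ≠ 0 by norm_num)
    linear_combination -hB
  · linear_combination -hA

/-- A solution with `5 ∣ C` odd gives a solution of the auxiliary system. -/
private lemma false_of_five_dvd {C e A B : ℤ} (ih : NoneBelow (C * e).natAbs) (hC : C ≠ 0)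
    (he : e ≠ 0) (hco : IsCoprime C e) (hB : C ^ 2 + 16 * e ^ 2 = B ^ 2)
    (hA : C ^ 2 + 25 * e ^ 2 = A ^ 2) (hodd : Odd C) (h5 : (5 : ℤ) ∣ C) : False := by
  obtain ⟨C', rfl⟩ := h5
  obtain ⟨A', rfl⟩ : (5 : ℤ) ∣ A :=
    Int.Prime.dvd_pow' (k := 2) (p := 5) (by norm_num) ⟨5 * C' ^ 2 + 5 * e ^ 2, by
      rw [← hA]; push_cast; ring⟩
  refine false_of_aux_system ih (β := e) (γ := C') (α := A') (δ := B) he
    hco.of_mul_left_right.symm (Int.odd_mul.1 hodd).2 ?_ ?_ ?_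
  · apply mul_left_cancel₀ (show (25 : ℤ) ≠ 0 by norm_num)
    linear_combination -hA
  · linear_combination -hB
  · rw [mul_comm e C']
    exact natAbs_mul_le (dvd_mul_left _ _) hC

/-- The two Pythagorean parametrisations of a solution with `C` odd prime to five have a common
refinement `a, b, c, d`. -/
private lemma exists_parameters {C e A B : ℤ} (he : e ≠ 0) (hco : IsCoprime C e)
    (hB : C ^ 2 + 16 * e ^ 2 = B ^ 2) (hA : C ^ 2 + 25 * e ^ 2 = A ^ 2) (hodd : Odd C)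
    (h5 : ¬ (5 : ℤ) ∣ C) :
    ∃ a b c d : ℤ, a ≠ 0 ∧ b ≠ 0 ∧ c ≠ 0 ∧ d ≠ 0 ∧ Odd c ∧ IsCoprime b c ∧ IsCoprime a d ∧
      e = 2 * (a * b * (c * d)) ∧
      ((5 * (a * c)) ^ 2 - (b * d) ^ 2) ^ 2 = ((4 * (a * b)) ^ 2 - (c * d) ^ 2) ^ 2 := by
  have heven : Even e := by
    rcases Int.even_or_odd e with h | ⟨k, hk⟩
    · exact h
    · exfalso
      obtain ⟨j, hj⟩ := hodd
      have h8 := congrArg (Int.cast : ℤ → ZMod 4) hA
      rw [hj, hk] at h8
      push_cast at h8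
      have key : ∀ j k a : ZMod 4, (2 * j + 1) ^ 2 + 25 * (2 * k + 1) ^ 2 ≠ a ^ 2 := by decide
      exact key _ _ _ h8
  have hcC2 : IsCoprime C (2 : ℤ) := by
    obtain ⟨j, hj⟩ := hodd; exact ⟨1, -j, by linear_combination hj⟩
  have hC5 : IsCoprime C (5 : ℤ) :=
    ((Prime.coprime_iff_not_dvd (Int.prime_iff_natAbs_prime.2 (by norm_num))).2 h5).symm
  have hcB : Int.gcd C (4 * e) = 1 := by
    rw [← Int.isCoprime_iff_gcd_eq_one]
    exact (by simpa using hcC2.pow_right (n := 2) : IsCoprime C 4).mul_right hco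
  have hcA : Int.gcd C (5 * e) = 1 :=
    Int.isCoprime_iff_gcd_eq_one.1 (hC5.mul_right hco)
  have hB0 : 0 < |B| := abs_pos.2 (fun h => by
    subst h; nlinarith [sq_pos_of_ne_zero he, sq_nonneg C])
  have hA0 : 0 < |A| := abs_pos.2 (fun h => by
    subst h; nlinarith [sq_pos_of_ne_zero he, sq_nonneg C])
  have tB : PythagoreanTriple C (4 * e) |B| := by
    change _ = _
    rw [← abs_mul, abs_mul_self]
    linear_combination hB
  have tA : PythagoreanTriple C (5 * e) |A| := by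
    change _ = _
    rw [← abs_mul, abs_mul_self]
    linear_combination hA
  obtain ⟨m, n, hx, hy, -, hmn, hpar, -⟩ :=
    tB.coprime_classification' hcB (Int.odd_iff.1 hodd) hB0
  obtain ⟨k, l, hx', hy', -, hkl, -, -⟩ :=
    tA.coprime_classification' hcA (Int.odd_iff.1 hodd) hA0
  obtain ⟨p, q, hp, hq, hpq, hprod, hsq⟩ : ∃ p q : ℤ, Even p ∧ Odd q ∧ Int.gcd p q = 1 ∧
      p * q = m * n ∧ (p ^ 2 - q ^ 2) ^ 2 = C ^ 2 := by
    rcases hpar with ⟨hm, hn⟩ | ⟨hm, hn⟩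
    · exact ⟨m, n, Int.even_iff.2 hm, Int.odd_iff.2 hn, hmn, rfl, by rw [hx]⟩
    · exact ⟨n, m, Int.even_iff.2 hn, Int.odd_iff.2 hm, by rwa [Int.gcd_comm], mul_comm _ _,
        by rw [hx]; ring⟩
  obtain ⟨r, s, hr, hrs, hprod', hsq'⟩ : ∃ r s : ℤ, (5 : ℤ) ∣ r ∧ Int.gcd r s = 1 ∧
      r * s = k * l ∧ (r ^ 2 - s ^ 2) ^ 2 = C ^ 2 := by
    have h5' : (5 : ℤ) ∣ k * l :=
      IsCoprime.dvd_of_dvd_mul_left (show IsCoprime (5 : ℤ) 2 from ⟨1, -2, by norm_num⟩)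
        ⟨e, by linear_combination -hy'⟩
    rcases (Int.Prime.dvd_mul' (p := 5) (by norm_num) h5') with h | h
    · exact ⟨k, l, h, hkl, rfl, by rw [hx']⟩
    · exact ⟨l, k, h, by rwa [Int.gcd_comm], mul_comm _ _, by rw [hx']; ring⟩
  obtain ⟨R, rfl⟩ := hr
  obtain ⟨P, rfl⟩ : (4 : ℤ) ∣ p := by
    obtain ⟨j, hj⟩ := hq
    have c4 : IsCoprime (4 : ℤ) q := by
      have e2 : IsCoprime (2 : ℤ) q := ⟨-j, 1, by linear_combination hj⟩
      simpa using e2.pow_left (m := 2)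
    obtain ⟨g, hg⟩ := heven
    exact c4.dvd_of_dvd_mul_right ⟨g, by rw [hprod]; linarith⟩
  have he' : e = 2 * (P * q) := by linarith
  have hP0 : P ≠ 0 := by rintro rfl; exact he (by rw [he']; simp)
  obtain ⟨a, b, c, d, hP, hR, hq', hs, hbc⟩ :=
    four_numbers hP0 (show P * q = R * s by linarith)
  subst hP hR hq' hs
  rw [Int.odd_mul] at hq
  have ha0 : a ≠ 0 := left_ne_zero_of_mul hP0
  have hb0 : b ≠ 0 := right_ne_zero_of_mul hP0
  have hd0 : d ≠ 0 := by rintro rfl; simp at hq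
  have hc0 : c ≠ 0 := by rintro rfl; simp at hq
  have had : IsCoprime a d :=
    (Int.isCoprime_iff_gcd_eq_one.2 hpq).of_mul_left_right.of_mul_left_left.of_mul_right_right
  exact ⟨a, b, c, d, ha0, hb0, hc0, hd0, hq.1, hbc, had, he', hsq'.trans hsq.symm⟩

/-- Equal signs in the parameters give a smaller solution. -/
private lemma false_of_same_sign {C e a b c d : ℤ} (ih : NoneBelow (C * e).natAbs) (hC : C ≠ 0)
    (ha0 : a ≠ 0) (hb0 : b ≠ 0) (hc0 : c ≠ 0) (hd0 : d ≠ 0) (hbc : IsCoprime b c)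
    (had : IsCoprime a d) (he' : e = 2 * (a * b * (c * d)))
    (hE : (5 * (a * c)) ^ 2 - (b * d) ^ 2 = (4 * (a * b)) ^ 2 - (c * d) ^ 2) : False := by
  obtain ⟨K, hK1, hK2⟩ := sq_mul_eq_sq_mul hb0 hbc
    (show c ^ 2 * (d ^ 2 + 25 * a ^ 2) = b ^ 2 * (d ^ 2 + 16 * a ^ 2) by
      linear_combination hE)
  have d1 : K ∣ 9 * a ^ 2 := ⟨b ^ 2 - c ^ 2, by linear_combination hK1 - hK2⟩
  have d2 : K ∣ 9 * d ^ 2 :=
    ⟨25 * c ^ 2 - 16 * b ^ 2, by linear_combination 25 * hK2 - 16 * hK1⟩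
  have hpos : 0 < K := by
    by_contra hneg
    nlinarith [sq_pos_of_ne_zero ha0, sq_nonneg d,
      mul_nonneg (neg_nonneg.2 (not_lt.1 hneg)) (sq_nonneg b)]
  rcases dvd_nine had d1 d2 with rfl | rfl | rfl | rfl | rfl | rfl
  case inl =>
    refine ih d a b c ?_ hd0 ha0 had.symm
      (by linear_combination hK2) (by linear_combination hK1)
    have h1 : (C * e).natAbs = (d * a).natAbs * (2 * (C * (b * c)).natAbs) := by
      rw [show C * e = d * a * (2 * (C * (b * c))) by rw [he']; ring, Int.natAbs_mul,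
        Int.natAbs_mul 2]
      rfl
    rw [h1]
    have h2 : 0 < (C * (b * c)).natAbs :=
      Int.natAbs_pos.2 (mul_ne_zero hC (mul_ne_zero hb0 hc0))
    have h3 : 0 < (d * a).natAbs := Int.natAbs_pos.2 (mul_ne_zero hd0 ha0)
    nlinarith
  case inr.inl =>
    have := congrArg (Int.cast : ℤ → ZMod 3) hK2
    push_cast at this
    rw [show (16 : ZMod 3) = 1 from rfl, show (3 : ZMod 3) = 0 from rfl, one_mul,
      zero_mul] at this
    exact not_three_dvd_both had.symm (zmod3_sq_add_sq _ _ this)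
  case inr.inr.inl =>
    have := congrArg (Int.cast : ℤ → ZMod 3) hK2
    push_cast at this
    rw [show (16 : ZMod 3) = 1 from rfl, show (9 : ZMod 3) = 0 from rfl, one_mul,
      zero_mul] at this
    exact not_three_dvd_both had.symm (zmod3_sq_add_sq _ _ this)
  all_goals omega

/-- Opposite signs in the parameters give a solution of the auxiliary system. -/
private lemma false_of_opposite_sign {C e a b c d : ℤ} (ih : NoneBelow (C * e).natAbs)
    (hC : C ≠ 0) (he : e ≠ 0) (ha0 : a ≠ 0) (hb0 : b ≠ 0) (hc : Odd c) (hbc : IsCoprime b c)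
    (had : IsCoprime a d) (he' : e = 2 * (a * b * (c * d)))
    (hE : (5 * (a * c)) ^ 2 - (b * d) ^ 2 = -((4 * (a * b)) ^ 2 - (c * d) ^ 2)) : False := by
  obtain ⟨K, hK1, hK2⟩ := sq_mul_eq_sq_mul hb0 hbc
    (show c ^ 2 * (d ^ 2 - 25 * a ^ 2) = b ^ 2 * (16 * a ^ 2 - d ^ 2) by
      linear_combination -hE)
  have d1 : K ∣ 9 * a ^ 2 := ⟨-(b ^ 2 + c ^ 2), by linear_combination -hK1 - hK2⟩
  have d2 : K ∣ 9 * d ^ 2 :=
    ⟨-(16 * b ^ 2) - 25 * c ^ 2, by linear_combination -16 * hK1 - 25 * hK2⟩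
  have hneg : K < 0 := by
    by_contra hnn
    have h0 : 0 ≤ K * (b ^ 2 + c ^ 2) :=
      mul_nonneg (not_lt.1 hnn) (add_nonneg (sq_nonneg b) (sq_nonneg c))
    have h0' : 0 < a ^ 2 := sq_pos_of_ne_zero ha0
    have h0'' : K * (b ^ 2 + c ^ 2) = -(9 * a ^ 2) := by linear_combination -hK1 - hK2
    linarith
  rcases dvd_nine had d1 d2 with rfl | rfl | rfl | rfl | rfl | rfl
  · omega
  · omega
  · omega
  · have h := congrArg (Int.cast : ℤ → ZMod 3)
      (show b ^ 2 + c ^ 2 = 9 * a ^ 2 by linear_combination hK1 + hK2)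
    push_cast at h
    rw [show (9 : ZMod 3) = 0 from rfl, zero_mul] at h
    exact not_three_dvd_both hbc (zmod3_sq_add_sq _ _ h)
  · have h := congrArg (Int.cast : ℤ → ZMod 3)
      (show b ^ 2 + c ^ 2 = 3 * a ^ 2 by linarith)
    push_cast at h
    rw [show (3 : ZMod 3) = 0 from rfl, zero_mul] at h
    exact not_three_dvd_both hbc (zmod3_sq_add_sq _ _ h)
  · refine false_of_aux_system ih (α := a) (δ := d) hb0 hbc hc (by linarith) (by linarith) ?_
    calc (b * c).natAbs ≤ e.natAbs :=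
          Nat.le_of_dvd (Int.natAbs_pos.2 he)
            (Int.natAbs_dvd_natAbs.2 ⟨2 * (a * d), by rw [he']; ring⟩)
      _ = 1 * e.natAbs := (one_mul _).symm
      _ ≤ C.natAbs * e.natAbs := Nat.mul_le_mul_right _ (Int.natAbs_pos.2 hC)
      _ = (C * e).natAbs := (Int.natAbs_mul _ _).symm

/-- Infinite descent on `|C e|`. -/
private lemma noneBelow (N : ℕ) : NoneBelow N := by
  induction N with
  | zero => exact fun C e A B h => absurd h (Nat.not_lt_zero _)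
  | succ N ih =>
    intro C e A B hN hC he hco hB hA
    have ih : NoneBelow (C * e).natAbs := fun C' e' A' B' h => ih C' e' A' B' (by omega)
    rcases Int.even_or_odd C with ⟨c, hc⟩ | hodd
    · exact false_of_even ih hC hco hB hA hc
    by_cases h5 : (5 : ℤ) ∣ C
    · exact false_of_five_dvd ih hC he hco hB hA hodd h5
    obtain ⟨a, b, c, d, ha0, hb0, hc0, hd0, hc, hbc, had, he', hsq⟩ :=
      exists_parameters he hco hB hA hodd h5
    rcases sq_eq_sq_iff_eq_or_eq_neg.1 hsq with hE | hE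
    · exact false_of_same_sign ih hC ha0 hb0 hc0 hd0 hbc had he' hE
    · exact false_of_opposite_sign ih hC he ha0 hb0 hc hbc had he' hE

/-- `C² + 16e²` and `C² + 25e²` are not both squares for coprime nonzero `C`, `e`. -/
theorem descent {C e A B : ℤ} (hC : C ≠ 0) (he : e ≠ 0) (hco : IsCoprime C e)
    (hB : C ^ 2 + 16 * e ^ 2 = B ^ 2) (hA : C ^ 2 + 25 * e ^ 2 = A ^ 2) : False :=
  noneBelow _ C e A B (Nat.lt_succ_self _) hC he hco hB hA

end FLTAgent.Irred35
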