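import Mathlib.AlgebraicGeometry.EllipticCurve.Weierstrass
import Mathlib.Tactic

/-!
# The parameters of levels `3` and `5`

The `j`-line parameters attached to a rational line of order `3` or `5`, in terms of the
quantities `b₂, b₄, b₆, b₈` (`param_three`, `param_five`).
-/

namespace FLTAgent.Irred35

open WeierstrassCurve

variable {F : Type*} [Field F] [CharZero F] (E : WeierstrassCurve F)

omit [CharZero F] in
/-- `x`-translates of the `b`-invariants leave `c₄` unchanged. -/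
lemma shift_c₄ (m : F) :
    (E.b₂ + 12 * m) ^ 2 - 24 * (E.b₄ + m * E.b₂ + 6 * m ^ 2) = E.c₄ := by
  rw [c₄]; ring

/-- `x`-translates of the `b`-invariants leave `Δ` unchanged. -/
lemma shift_Δ (m : F) :
    -(E.b₂ + 12 * m) ^ 2 *
        (E.b₈ + 3 * m * E.b₆ + 3 * m ^ 2 * E.b₄ + m ^ 3 * E.b₂ + 3 * m ^ 4)
      - 8 * (E.b₄ + m * E.b₂ + 6 * m ^ 2) ^ 3
      - 27 * (E.b₆ + 2 * m * E.b₄ + m ^ 2 * E.b₂ + 4 * m ^ 3) ^ 2
      + 9 * (E.b₂ + 12 * m) * (E.b₄ + m * E.b₂ + 6 * m ^ 2) *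
        (E.b₆ + 2 * m * E.b₄ + m ^ 2 * E.b₂ + 4 * m ^ 3) = E.Δ := by
  have hb8 : E.b₈ = (E.b₂ * E.b₆ - E.b₄ ^ 2) / 4 := by
    field_simp; linear_combination E.b_relation
  rw [Δ, hb8]
  ring

omit [CharZero F] in
lemma shift_relation (m : F) :
    4 * (E.b₈ + 3 * m * E.b₆ + 3 * m ^ 2 * E.b₄ + m ^ 3 * E.b₂ + 3 * m ^ 4) =
      (E.b₂ + 12 * m) * (E.b₆ + 2 * m * E.b₄ + m ^ 2 * E.b₂ + 4 * m ^ 3)
        - (E.b₄ + m * E.b₂ + 6 * m ^ 2) ^ 2 := by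
  linear_combination E.b_relation

/-- The parameter of level `3` of a curve with a root `m` of the third division polynomial. -/
theorem param_three (hΔ : E.Δ ≠ 0) (m : F)
    (hm : 3 * m ^ 4 + E.b₂ * m ^ 3 + 3 * E.b₄ * m ^ 2 + 3 * E.b₆ * m + E.b₈ = 0) :
    ∃ t : F, t ≠ 0 ∧ (t + 27) * (t + 3) ^ 3 * E.Δ = t * E.c₄ ^ 3 := by
  have hc := shift_c₄ E m
  have hd := shift_Δ E m
  have hr := shift_relation E m
  have h8 : E.b₈ + 3 * m * E.b₆ + 3 * m ^ 2 * E.b₄ + m ^ 3 * E.b₂ + 3 * m ^ 4 = 0 := by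
    linear_combination hm
  rw [h8] at hr hd
  generalize E.b₂ + 12 * m = B2 at hc hd hr
  generalize E.b₄ + m * E.b₂ + 6 * m ^ 2 = B4 at hc hd hr
  generalize E.b₆ + 2 * m * E.b₄ + m ^ 2 * E.b₂ + 4 * m ^ 3 = B6 at hd hr
  generalize E.c₄ = c at hc ⊢
  generalize E.Δ = D at hd hΔ ⊢
  have hr' : B2 * B6 = B4 ^ 2 := by linear_combination -hr
  have hD : B4 ^ 3 - 27 * B6 ^ 2 = D := by linear_combination hd - 9 * B4 * hr'
  have hB6 : B6 ≠ 0 := by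
    rintro rfl
    have h4 : B4 = 0 := by simpa using hr'.symm
    apply hΔ
    rw [← hD, h4]; ring
  have hB2 : B2 = B4 ^ 2 / B6 := by rw [eq_div_iff hB6]; exact hr'
  refine ⟨B4 ^ 3 / B6 ^ 2 - 27, ?_, ?_⟩
  · intro h
    apply hΔ
    rw [sub_eq_zero, div_eq_iff (pow_ne_zero 2 hB6)] at h
    rw [← hD, h]; ring
  · rw [← hc, ← hD, hB2]
    field_simp
    ring

/-- The parameter of level `5` of a curve with a symmetric pair of abscissae `m ± d`. -/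
theorem param_five (hΔ : E.Δ ≠ 0) (m D : F) (hD : D ≠ 0)
    (h6 : E.b₆ + 2 * m * E.b₄ + m ^ 2 * E.b₂ + 4 * m ^ 3 = (E.b₂ + 12 * m) * D)
    (h8 : E.b₈ + 3 * m * E.b₆ + 3 * m ^ 2 * E.b₄ + m ^ 3 * E.b₂ + 3 * m ^ 4 =
      5 * D ^ 2 + (E.b₄ + m * E.b₂ + 6 * m ^ 2) * D) :
    ∃ u : F, u ≠ 0 ∧ (u ^ 2 + 10 * u + 5) ^ 3 * E.Δ = u * E.c₄ ^ 3 := by
  have hc := shift_c₄ E m
  have hd := shift_Δ E m
  have hr := shift_relation E m
  rw [h6, h8] at hr hd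
  generalize E.b₂ + 12 * m = B2 at hc hd hr
  generalize E.b₄ + m * E.b₂ + 6 * m ^ 2 = B4 at hc hd hr
  generalize E.c₄ = c at hc ⊢
  generalize E.Δ = Δ' at hd hΔ ⊢
  have hB : B2 ^ 2 * D = (B4 + 2 * D) ^ 2 + 16 * D ^ 2 := by linear_combination -hr
  have hΔ' : Δ' = 32 * D ^ 2 * (B4 - 20 * D) := by
    linear_combination -hd + (8 * B4 - 32 * D) * hB
  have hc' : c = (B4 ^ 2 - 20 * B4 * D + 20 * D ^ 2) / D := by
    rw [eq_div_iff hD]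
    linear_combination hB - D * hc
  have h20 : B4 - 20 * D ≠ 0 := fun h => hΔ (by rw [hΔ', h]; ring)
  refine ⟨(B4 - 20 * D) / (2 * D), div_ne_zero h20 (mul_ne_zero two_ne_zero hD), ?_⟩
  rw [hΔ', hc']
  field_simp
  ring

end FLTAgent.Irred35
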