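import Fermat.Agent.Irred35.Torsion
import Fermat.Agent.Irred35.Invariants
import Fermat.Prelude.Def_FLTPrelim_GaloisRep
import Mathlib.FieldTheory.Galois.Infinite
import Mathlib.FieldTheory.Perfect
import Mathlib.FieldTheory.IsAlgClosed.AlgebraicClosure
import Mathlib.LinearAlgebra.FiniteDimensional.Basic

/-!
# Reducible mod `3` and mod `5` representations

A reducible mod `3` (resp. mod `5`) representation of a rational Weierstrass curve gives a
rational point on the `j`-line cover of level `3` (resp. `5`): `reducible_three`, `reducible_five`.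
Used by S51.
-/

namespace FLTAgent.Irred35

open WeierstrassCurve WeierstrassCurve.Affine WeierstrassCurve.Affine.Point

local notation "Qbar" => AlgebraicClosure ℚ

lemma exists_rat_of_fixed {x : Qbar} (h : ∀ σ : Qbar ≃ₐ[ℚ] Qbar, σ x = x) :
    ∃ q : ℚ, algebraMap ℚ Qbar q = x := by
  have : Algebra.IsAlgebraic ℚ Qbar := AlgebraicClosure.isAlgebraic ℚ
  have : IsAlgClosure ℚ Qbar := ⟨inferInstance, inferInstance⟩
  have : Normal ℚ Qbar := IsAlgClosure.normal ℚ Qbar
  have : IsGalois ℚ Qbar := ⟨⟩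
  have : x ∈ (⊥ : IntermediateField ℚ Qbar) := (InfiniteGalois.mem_bot_iff_fixed x).2 h
  exact IntermediateField.mem_bot.1 this

/-- If the `p`-torsion is at most a plane and has a stable nontrivial proper submodule,
then some nonzero `p`-torsion point has each conjugate among its multiples. -/
lemma exists_stable_point {W : WeierstrassCurve ℚ} (p : ℕ) [Fact p.Prime]
    (hne : ∃ P : (W⁄Qbar).toAffine.Point, P ≠ 0 ∧ p • P = 0)
    (hfin : {P : (W⁄Qbar).toAffine.Point | p • P = 0}.Finite)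
    (hcard : Nat.card {P : (W⁄Qbar).toAffine.Point | p • P = 0} < p ^ 3)
    (hred : ¬ Affine.Point.GaloisRepIsIrreducible (K := Qbar) ℚ W p) :
    ∃ P : (W⁄Qbar).toAffine.Point, P ≠ 0 ∧ p • P = 0 ∧
      ∀ σ : Qbar ≃ₐ[ℚ] Qbar, ∃ c : ℕ, c < p ∧ σ • P = c • P := by
  set T := Submodule.torsionBy ℤ (W.toAffine⁄Qbar).Point p with hT
  have hmem : ∀ P : (W⁄Qbar).toAffine.Point, P ∈ T ↔ p • P = 0 := fun P => by
    rw [hT, Submodule.mem_torsionBy_iff, natCast_zsmul]
  have hnt : Nontrivial T := by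
    obtain ⟨P, hP, hP'⟩ := hne
    exact ⟨⟨P, (hmem P).2 hP'⟩, 0, fun h => hP (congrArg Subtype.val h)⟩
  let e : T ≃ {P : (W⁄Qbar).toAffine.Point | p • P = 0} := Equiv.subtypeEquivRight hmem
  have : Finite {P : (W⁄Qbar).toAffine.Point | p • P = 0} := hfin.to_subtype
  have : Finite T := Finite.of_equiv _ e.symm
  have : Module.Finite (ZMod p) T := Module.Finite.of_finite
  have hdim : Module.finrank (ZMod p) T ≤ 2 := by
    have h1 := Module.natCard_eq_pow_finrank (K := ZMod p) (V := T)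
    rw [Nat.card_congr e, Nat.card_zmod] at h1
    rw [h1] at hcard
    have := (Nat.pow_lt_pow_iff_right (Fact.out : p.Prime).one_lt).1 hcard
    omega
  simp only [Affine.Point.GaloisRepIsIrreducible, not_and, not_forall, not_or] at hred
  obtain ⟨N, hstab, hbot, htop⟩ := hred hnt
  have hN1 : Module.finrank (ZMod p) N = 1 := by
    have h1 : Module.finrank (ZMod p) N < Module.finrank (ZMod p) T := Submodule.finrank_lt htop
    have h2 : Module.finrank (ZMod p) N ≠ 0 := fun h => hbot (Submodule.finrank_eq_zero.1 h)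
    omega
  obtain ⟨x, hx, hx0⟩ := Submodule.exists_mem_ne_zero_of_ne_bot hbot
  refine ⟨(x : (W⁄Qbar).toAffine.Point), fun h => hx0 (Subtype.ext h), (hmem _).1 x.2,
    fun σ => ?_⟩
  obtain ⟨c, hc⟩ := (finrank_eq_one_iff_of_nonzero' (⟨x, hx⟩ : N)
    (fun h => hx0 (congrArg Subtype.val h))).1 hN1 ⟨σ • x, hstab σ x hx⟩
  refine ⟨c.val, c.val_lt, ?_⟩
  have hc' : c • x = σ • x := congrArg Subtype.val hc
  rw [← ZMod.natCast_zmod_val c, Nat.cast_smul_eq_nsmul] at hc'
  exact (congrArg Subtype.val hc').symm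

variable {W : WeierstrassCurve ℚ}

lemma smul_some {x y : Qbar} (h : (W⁄Qbar).toAffine.Nonsingular x y) (σ : Qbar ≃ₐ[ℚ] Qbar) :
    ∃ h', σ • (Point.some x y h : (W.toAffine⁄Qbar).Point) = Point.some (σ x) (σ y) h' :=
  ⟨_, rfl⟩

lemma baseChange_Δ_ne_zero (hΔ : W.Δ ≠ 0) : (W⁄Qbar).Δ ≠ 0 := by
  simp only [WeierstrassCurve.baseChange, map_Δ]
  exact (map_ne_zero_iff _ (algebraMap ℚ Qbar).injective).2 hΔ

/-- Level `3`. -/
theorem reducible_three (hΔ : W.Δ ≠ 0)
    (hred : ¬ Affine.Point.GaloisRepIsIrreducible (K := Qbar) ℚ W 3) :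
    ∃ t : ℚ, t ≠ 0 ∧ (t + 27) * (t + 3) ^ 3 * W.Δ = t * W.c₄ ^ 3 := by
  have hΔ' := baseChange_Δ_ne_zero hΔ
  set E := (W⁄Qbar).toAffine with hE
  let R : Polynomial Qbar := Polynomial.C 3 * .X ^ 4 + .C E.b₂ * .X ^ 3 + .C (3 * E.b₄) * .X ^ 2
    + .C (3 * E.b₆) * .X + .C E.b₈
  have hR : R.natDegree = 4 := by
    simp only [R]
    compute_degree!
  obtain ⟨hfin, hcard⟩ := card_le E (S := {P | 3 • P = 0}) (R := R)
    (fun h => by simp [h] at hR)
    (fun x y h hP => by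
      have := three_torsion_data E hP
      simp only [psi3] at this
      simp only [R, Polynomial.eval_add, Polynomial.eval_mul, Polynomial.eval_pow,
        Polynomial.eval_C, Polynomial.eval_X]
      linear_combination this)
  have : Fact (Nat.Prime 3) := ⟨Nat.prime_three⟩
  obtain ⟨P, hP0, hP3, hP⟩ := exists_stable_point 3 (exists_three E hΔ') hfin
    (lt_of_le_of_lt hcard (by rw [hR]; norm_num)) hred
  rcases P with _ | ⟨x, y, h⟩
  · exact absurd rfl hP0
  have hfix : ∀ σ : Qbar ≃ₐ[ℚ] Qbar, σ x = x := fun σ => by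
    obtain ⟨c, hc, hσ⟩ := hP σ
    obtain ⟨h', hs⟩ := smul_some h σ
    rw [hs] at hσ
    interval_cases c
    · rw [zero_nsmul] at hσ
      exact absurd hσ (Point.some_ne_zero _)
    · rw [one_smul] at hσ
      exact (Point.some.inj hσ).1
    · have e : (2 : ℕ) • Point.some x y h = -Point.some x y h := by
        rw [eq_neg_iff_add_eq_zero, ← hP3]; abel
      rw [e] at hσ
      exact Point.X_eq_iff.2 (.inr hσ)
  obtain ⟨m, hm⟩ := exists_rat_of_fixed hfix
  refine param_three W hΔ m ((algebraMap ℚ Qbar).injective ?_)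
  have := three_torsion_data E hP3
  simp only [psi3, hE, WeierstrassCurve.baseChange, toAffine, map_b₂, map_b₄, map_b₆,
    map_b₈, ← hm] at this
  simp only [map_add, map_mul, map_pow, map_ofNat, _root_.map_zero]
  exact this

/-- Level `5`. -/
theorem reducible_five (hΔ : W.Δ ≠ 0)
    (hred : ¬ Affine.Point.GaloisRepIsIrreducible (K := Qbar) ℚ W 5) :
    ∃ u : ℚ, u ≠ 0 ∧ (u ^ 2 + 10 * u + 5) ^ 3 * W.Δ = u * W.c₄ ^ 3 := by
  have hΔ' := baseChange_Δ_ne_zero hΔ
  set E := (W⁄Qbar).toAffine with hE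
  obtain ⟨hfin, hcard⟩ := card_le E (S := {P | 5 • P = 0}) (R := fivePoly E)
    (fun h => by simpa [h] using (fivePoly_natDegree E))
    (fun x y h hP => by
      obtain ⟨x₂, -, -, -, -, -, hN, hN2⟩ := five_torsion_data E hP
      rw [fivePoly_eval E x x₂ hN, hN2, sub_self, mul_zero])
  rw [fivePoly_natDegree E] at hcard
  have : Fact (Nat.Prime 5) := ⟨Nat.prime_five⟩
  obtain ⟨P, hP0, hP5, hP⟩ := exists_stable_point 5 (exists_five E hΔ') hfin
    (lt_of_le_of_lt hcard (by norm_num)) hred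
  rcases P with _ | ⟨x, y, h⟩
  · exact absurd rfl hP0
  obtain ⟨x₂, y₂, h₂, h2P, hne, hM, hN, hN2⟩ := five_torsion_data E hP5
  set P := Point.some x y h with hPdef
  set Q := Point.some x₂ y₂ h₂
  have hcases : ∀ σ : Qbar ≃ₐ[ℚ] Qbar, (σ x = x ∧ σ x₂ = x₂) ∨ (σ x = x₂ ∧ σ x₂ = x) := by
    intro σ
    obtain ⟨c, hc, hσ⟩ := hP σ
    obtain ⟨h', hs⟩ := smul_some h σ
    obtain ⟨h₂', hs₂⟩ := smul_some h₂ σ
    have hσ2 : σ • Q = (2 * c) • P := by
      rw [mul_smul, two_smul]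
      show σ • Q = _
      rw [← hσ, ← h2P]
      exact smul_add σ _ _
    change σ • P = _ at hσ
    rw [hs] at hσ
    rw [hs₂] at hσ2
    have m2 : (2 : ℕ) • P = Q := by rw [two_smul, h2P]
    have m3 : (3 : ℕ) • P = -Q := by rw [eq_neg_iff_add_eq_zero, ← h2P, ← hP5]; abel
    have m4 : (4 : ℕ) • P = -P := by rw [eq_neg_iff_add_eq_zero, ← hP5]; abel
    have m6 : (6 : ℕ) • P = P := by
      rw [show (6 : ℕ) = 5 + 1 from rfl, add_smul, hP5, zero_add, one_smul]
    have m8 : (8 : ℕ) • P = -Q := by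
      rw [show (8 : ℕ) = 5 + 3 from rfl, add_smul, hP5, zero_add, m3]
    interval_cases c
    · rw [zero_nsmul] at hσ
      exact absurd hσ (Point.some_ne_zero _)
    · rw [one_smul] at hσ
      rw [mul_one, m2] at hσ2
      exact .inl ⟨X_eq_iff.2 (.inl hσ), X_eq_iff.2 (.inl hσ2)⟩
    · rw [m2] at hσ
      rw [show 2 * 2 = 4 from rfl, m4] at hσ2
      exact .inr ⟨X_eq_iff.2 (.inl hσ), X_eq_iff.2 (.inr hσ2)⟩
    · rw [m3] at hσ
      rw [show 2 * 3 = 6 from rfl, m6] at hσ2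
      exact .inr ⟨X_eq_iff.2 (.inr hσ), X_eq_iff.2 (.inl hσ2)⟩
    · rw [m4] at hσ
      rw [show 2 * 4 = 8 from rfl, m8] at hσ2
      exact .inl ⟨X_eq_iff.2 (.inr hσ), X_eq_iff.2 (.inr hσ2)⟩
  obtain ⟨m, hm⟩ := exists_rat_of_fixed (x := (x + x₂) / 2) fun σ => by
    rcases hcases σ with ⟨e1, e2⟩ | ⟨e1, e2⟩ <;>
      simp [map_add, map_div₀, map_ofNat, e1, e2, add_comm]
  obtain ⟨D, hD⟩ := exists_rat_of_fixed (x := ((x - x₂) / 2) ^ 2) fun σ => by
    rcases hcases σ with ⟨e1, e2⟩ | ⟨e1, e2⟩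
    · simp [map_pow, map_sub, map_div₀, map_ofNat, e1, e2]
    · simp [map_pow, map_sub, map_div₀, map_ofNat, e1, e2]; ring
  have hD0 : D ≠ 0 := by
    rintro rfl
    rw [_root_.map_zero, eq_comm, pow_eq_zero_iff two_ne_zero, div_eq_zero_iff] at hD
    exact hne (sub_eq_zero.1 (hD.resolve_right two_ne_zero)).symm
  have hdne : (x - x₂) / 2 ≠ 0 := div_ne_zero (sub_ne_zero.2 (Ne.symm hne)) two_ne_zero
  obtain ⟨d, hd⟩ : ∃ d : Qbar, d = (x - x₂) / 2 := ⟨_, rfl⟩
  have hx : x = algebraMap ℚ Qbar m + d := by rw [hm, hd]; ring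
  have hx₂ : x₂ = algebraMap ℚ Qbar m - d := by rw [hm, hd]; ring
  rw [← hd] at hD hdne
  simp only [dupNum, dupDen, hE, WeierstrassCurve.baseChange, toAffine, map_b₂, map_b₄, map_b₆,
    map_b₈, hx, hx₂] at hN hN2
  refine param_five W hΔ m D hD0 ((algebraMap ℚ Qbar).injective ?_)
    ((algebraMap ℚ Qbar).injective ?_)
  · simp only [map_add, map_mul, map_pow, map_ofNat, hD]
    apply mul_left_cancel₀ hdne
    linear_combination (-1 / 2 : Qbar) * hN + (1 / 2 : Qbar) * hN2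
  · simp only [map_add, map_mul, map_pow, map_ofNat, hD]
    linear_combination (-1 / 2 : Qbar) * hN + (-1 / 2 : Qbar) * hN2

end FLTAgent.Irred35
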