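import Fermat.Agent.Irred35.CurveMap
import Fermat.Agent.Irred35.Reducible
import Fermat.Prelude.Def_FLTPrelim_Modularity
import Fermat.Prelude.Def_FLTPrelim_ModularRep

/-!
# A semistable curve is irreducible mod 3 or mod 5

If both `E[3]` and `E[5]` were reducible, the two invariants would give a rational point on the
fibre product of the two `j`-maps.  It has only four (`fibre_product`), and none of them is the
`j`-invariant of a curve semistable at `5`.
-/

set_option autoImplicit false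

open WeierstrassCurve

namespace FLTAgent.Irred35

/-- A semistable integral Weierstrass model is irreducible mod 3 or mod 5. -/
theorem modRepIsIrreducible_three_or_five (W : WeierstrassCurve ℤ) (hΔ : W.Δ ≠ 0)
    (hW : W.IsSemistableModel) : W.ModRepIsIrreducible 3 ∨ W.ModRepIsIrreducible 5 := by
  by_contra hcon
  simp only [not_or, WeierstrassCurve.ModRepIsIrreducible] at hcon
  set Wq := W.map (Int.castRingHom ℚ) with hWq
  have hΔq : Wq.Δ ≠ 0 := by
    rw [hWq, WeierstrassCurve.map_Δ]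
    simpa using hΔ
  obtain ⟨t, ht, h3⟩ := reducible_three hΔq hcon.1
  obtain ⟨u, hu, h5⟩ := reducible_five hΔq hcon.2
  have hF : (t + 27) * (t + 3) ^ 3 * u = (u ^ 2 + 10 * u + 5) ^ 3 * t := by
    apply mul_left_cancel₀ hΔq
    linear_combination u * h3 - t * h5
  have hcases := fibre_product ht hu hF
  simp only [hWq, WeierstrassCurve.map_Δ, WeierstrassCurve.map_c₄, eq_intCast] at h5
  -- at `5` the model is semistable, and `5`-adically the four candidates are impossible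
  have h5p : Prime (5 : ℤ) := Int.prime_iff_natAbs_prime.2 (by norm_num)
  have key : ∀ (A B : ℤ) (k : ℕ), ¬ (5 : ℤ) ∣ A → ¬ (5 : ℤ) ∣ B → 1 ≤ k → k ≤ 2 →
      A * W.c₄ ^ 3 ≠ 5 ^ k * B * W.Δ := by
    intro A B k hA hB hk1 hk2 he
    obtain ⟨c, hc⟩ : (5 : ℤ) ∣ W.c₄ := by
      have : (5 : ℤ) ∣ A * W.c₄ ^ 3 :=
        he ▸ dvd_mul_of_dvd_left (dvd_mul_of_dvd_left (dvd_pow_self _ (by omega)) _) _
      exact h5p.dvd_of_dvd_pow ((h5p.dvd_mul.1 this).resolve_left hA)
    have hd : (5 : ℤ) ∣ B * W.Δ := by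
      rcases (show k = 1 ∨ k = 2 by omega) with rfl | rfl
      · exact ⟨5 * (A * c ^ 3), by rw [hc] at he; linarith⟩
      · exact ⟨A * c ^ 3, by rw [hc] at he; linarith⟩
    exact hW 5 (by norm_num) ((h5p.dvd_mul.1 hd).resolve_left hB) ⟨c, hc⟩
  rcases hcases with rfl | rfl | rfl | rfl
  · refine key 32768 (211 ^ 3) 1 (by norm_num) (by norm_num) le_rfl (by norm_num) ?_
    exact_mod_cast (show (32768 : ℚ) * (W.c₄ : ℚ) ^ 3 = 5 ^ 1 * 211 ^ 3 * (W.Δ : ℚ) by
      linear_combination (262144 / 25 : ℚ) * h5)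
  · refine key (-32) (29 ^ 3) 1 (by norm_num) (by norm_num) le_rfl (by norm_num) ?_
    exact_mod_cast (show (-32 : ℚ) * (W.c₄ : ℚ) ^ 3 = 5 ^ 1 * 29 ^ 3 * (W.Δ : ℚ) by
      linear_combination (-64 / 25 : ℚ) * h5)
  · refine key (-2) 1 2 (by norm_num) (by norm_num) (by norm_num) le_rfl ?_
    exact_mod_cast (show (-2 : ℚ) * (W.c₄ : ℚ) ^ 3 = 5 ^ 2 * 1 * (W.Δ : ℚ) by
      linear_combination (-1 / 5 : ℚ) * h5)
  · refine key (-8) (241 ^ 3) 2 (by norm_num) (by norm_num) (by norm_num) le_rfl ?_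
    exact_mod_cast (show (-8 : ℚ) * (W.c₄ : ℚ) ^ 3 = 5 ^ 2 * 241 ^ 3 * (W.Δ : ℚ) by
      linear_combination (-1 / 5 : ℚ) * h5)

end FLTAgent.Irred35
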