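import Fermat.Agent.Irred35.Descent
import Mathlib.Data.Nat.Squarefree
import Mathlib.Data.Rat.Lemmas

/-!
# The rational points of an auxiliary elliptic curve

The rational points of `w² = z (z - 9) (z - 25)`: the affine ones have `z ∈ {0, 9, 25, 5, 45}`
(`rational_points`).
-/

namespace FLTAgent.Irred35

/-- No rational `z` other than `25` makes `z`, `z - 9`, `z - 25` all squares. -/
lemma three_squares {z : ℚ} (h0 : IsSquare z) (h9 : IsSquare (z - 9)) (h25 : IsSquare (z - 25)) :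
    z = 25 := by
  by_contra hne
  obtain ⟨p, hp⟩ := h25
  obtain ⟨q, hq⟩ := h0
  obtain ⟨s, hs⟩ := h9
  have hp0 : p ≠ 0 := by rintro rfl; apply hne; linarith
  have hd : (p.den : ℚ) ≠ 0 := by exact_mod_cast p.den_nz
  have hnum : (p.num : ℚ) = p * p.den := (Rat.mul_den_eq_num p).symm
  obtain ⟨B, hB⟩ : IsSquare (p.num ^ 2 + 16 * (p.den : ℤ) ^ 2 : ℤ) := by
    rw [← Rat.isSquare_intCast_iff]
    refine ⟨s * p.den, ?_⟩
    push_cast
    rw [hnum]
    linear_combination (p.den : ℚ) ^ 2 * hs - (p.den : ℚ) ^ 2 * hp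
  obtain ⟨A, hA⟩ : IsSquare (p.num ^ 2 + 25 * (p.den : ℤ) ^ 2 : ℤ) := by
    rw [← Rat.isSquare_intCast_iff]
    refine ⟨q * p.den, ?_⟩
    push_cast
    rw [hnum]
    linear_combination (p.den : ℚ) ^ 2 * hq - (p.den : ℚ) ^ 2 * hp
  exact descent (C := p.num) (e := p.den) (Rat.num_ne_zero.2 hp0) (by exact_mod_cast p.den_nz)
    (Int.isCoprime_iff_gcd_eq_one.2 p.reduced) (by rw [hB]; ring : _ = B ^ 2)
    (by rw [hA]; ring : _ = A ^ 2)

lemma squarefree_part_dvd {a b c n A d : ℕ} (S : Finset ℕ) (hb : b ≠ 0) (hc : c ≠ 0)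
    (hsq : a * b * c = n ^ 2) (ha : A ^ 2 * d = a) (hA : A ≠ 0) (hd : Squarefree d)
    (h : ∀ q : ℕ, q.Prime → q ∣ a → q ∣ b ∨ q ∣ c → q ∈ S) :
    d ∣ ∏ q ∈ S, q := by
  rw [← Nat.prod_primeFactors_of_squarefree hd]
  refine Finset.prod_dvd_prod_of_subset _ _ _ fun q hq => ?_
  obtain ⟨hqp, hqd, hd0⟩ := Nat.mem_primeFactors.1 hq
  have hqa : q ∣ a := ha ▸ hqd.mul_left _
  refine h q hqp hqa ?_
  by_contra hcon
  simp only [not_or] at hcon
  have ha0 : a ≠ 0 := ha ▸ mul_ne_zero (pow_ne_zero 2 hA) hd0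
  have := congrArg (fun m => m.factorization q) hsq
  simp only [Nat.factorization_mul (mul_ne_zero ha0 hb) hc, Nat.factorization_mul ha0 hb,
    Nat.factorization_pow, Finsupp.coe_add, Pi.add_apply, Finsupp.coe_smul, Pi.smul_apply,
    smul_eq_mul, Nat.factorization_eq_zero_of_not_dvd hcon.1,
    Nat.factorization_eq_zero_of_not_dvd hcon.2] at this
  rw [← ha, Nat.factorization_mul (pow_ne_zero 2 hA) hd0, Nat.factorization_pow] at this
  simp only [Finsupp.coe_add, Pi.add_apply, Finsupp.coe_smul, Pi.smul_apply, smul_eq_mul] at this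
  have h1 : d.factorization q = 1 :=
    le_antisymm (hd.natFactorization_le_one q)
      (hqp.factorization_pos_of_dvd hd0 hqd)
  omega

lemma zmod8_classes :
    ∀ d ∈ ([(1, 2, 2), (3, 3, 1), (3, 6, 2), (5, 2, 10), (15, 3, 5), (15, 6, 10)] :
      List (ℕ × ℕ × ℕ)), d ≠ (1, 2, 2) →
    ∀ E ∈ ([0, 1, 4] : List (ZMod 8)), ∀ A ∈ ([0, 1, 4] : List (ZMod 8)),
    ∀ B ∈ ([0, 1, 4] : List (ZMod 8)), ∀ C ∈ ([0, 1, 4] : List (ZMod 8)),
      (4 * E ≠ 0 ∨ 4 * ((d.1 : ZMod 8) * A) ≠ 0) →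
      (d.2.1 : ZMod 8) * B = (d.2.2 : ZMod 8) * C + 16 * E →
      (d.1 : ZMod 8) * A ≠ (d.2.2 : ZMod 8) * C + 25 * E := by
  decide

lemma zmod8_sq : ∀ x : ZMod 8, x ^ 2 ∈ ([0, 1, 4] : List (ZMod 8)) := by decide

lemma zmod5_class : ∀ E A B C : ZMod 5,
    E ≠ 0 ∨ A ≠ 0 → 2 * B ^ 2 = 2 * C ^ 2 + 16 * E ^ 2 → A ^ 2 ≠ 2 * C ^ 2 + 25 * E ^ 2 := by
  decide

/-- The possible square classes of a positive solution. -/
lemma classes {a b c e n : ℕ} (hc : 0 < c) (he : 0 < e) (hco : Nat.Coprime a e)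
    (hb : b = c + 16 * e ^ 2) (ha : a = c + 25 * e ^ 2) (hsq : a * b * c = n ^ 2) :
    (IsSquare a ∧ IsSquare b ∧ IsSquare c) ∨
      (∃ A B C : ℕ, a = 5 * A ^ 2 ∧ b = B ^ 2 ∧ c = 5 * C ^ 2) := by
  obtain ⟨d₁, A, hA, hd₁⟩ := Nat.sq_mul_squarefree a
  obtain ⟨d₂, B, hB, hd₂⟩ := Nat.sq_mul_squarefree b
  obtain ⟨d₃, C, hC, hd₃⟩ := Nat.sq_mul_squarefree c
  have ha0 : a ≠ 0 := by rw [ha]; positivity
  have hb0 : b ≠ 0 := by rw [hb]; positivity
  have hA0 : A ≠ 0 := by rintro rfl; simp [← hA] at ha0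
  have hB0 : B ≠ 0 := by rintro rfl; simp [← hB] at hb0
  have hC0 : C ≠ 0 := by rintro rfl; simp [← hC] at hc
  have hqe : ∀ q : ℕ, q.Prime → q ∣ a → ¬ q ∣ e := fun q hq h h' =>
    Nat.not_coprime_of_dvd_of_dvd hq.one_lt h h' hco
  have key : ∀ q m : ℕ, q.Prime → q ∣ a → q ∣ m * e ^ 2 → q ∣ m := fun q m hq h h' =>
    (hq.dvd_mul.1 h').resolve_right fun h'' => hqe q hq h (hq.dvd_of_dvd_pow h'')
  have p9 : ∀ q : ℕ, q.Prime → q ∣ 9 → q = 3 := fun q hq h =>
    (Nat.prime_dvd_prime_iff_eq hq Nat.prime_three).1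
      (hq.dvd_of_dvd_pow (show q ∣ 3 ^ 2 from h))
  have p25 : ∀ q : ℕ, q.Prime → q ∣ 25 → q = 5 := fun q hq h =>
    (Nat.prime_dvd_prime_iff_eq hq Nat.prime_five).1
      (hq.dvd_of_dvd_pow (show q ∣ 5 ^ 2 from h))
  have p16 : ∀ q : ℕ, q.Prime → q ∣ 16 → q = 2 := fun q hq h =>
    (Nat.prime_dvd_prime_iff_eq hq Nat.prime_two).1
      (hq.dvd_of_dvd_pow (show q ∣ 2 ^ 4 from h))
  have gab : ∀ q : ℕ, q.Prime → q ∣ a → q ∣ b → q = 3 := fun q hq h h' =>
    p9 q hq (key q 9 hq h (by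
      have := Nat.dvd_sub h h'
      rwa [show a - b = 9 * e ^ 2 by omega] at this))
  have gac : ∀ q : ℕ, q.Prime → q ∣ a → q ∣ c → q = 5 := fun q hq h h' =>
    p25 q hq (key q 25 hq h (by
      have := Nat.dvd_sub h h'
      rwa [show a - c = 25 * e ^ 2 by omega] at this))
  have gbc : ∀ q : ℕ, q.Prime → q ∣ b → q ∣ c → q = 2 := fun q hq h h' => by
    have h16 : q ∣ 16 * e ^ 2 := by
      have := Nat.dvd_sub h h'
      rwa [show b - c = 16 * e ^ 2 by omega] at this
    rcases hq.dvd_mul.1 h16 with h2 | h2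
    · exact p16 q hq h2
    · exact absurd (hq.dvd_of_dvd_pow h2) (hqe q hq (ha ▸ Nat.dvd_add h' (h2.mul_left 25)))
  have D1 : d₁ ∣ 15 := by
    have := squarefree_part_dvd {3, 5} hb0 hc.ne' hsq hA hA0 hd₁ (fun q hq h h' => by
      rcases h' with h' | h'
      · simp [gab q hq h h']
      · simp [gac q hq h h'])
    simpa using this
  have D2 : d₂ ∣ 6 := by
    have := squarefree_part_dvd {3, 2} ha0 hc.ne' (by rw [← hsq]; ring) hB hB0 hd₂
      (fun q hq h h' => by
      rcases h' with h' | h'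
      · simp [gab q hq h' h]
      · simp [gbc q hq h h'])
    simpa using this
  have D3 : d₃ ∣ 10 := by
    have := squarefree_part_dvd {5, 2} ha0 hb0 (by rw [← hsq]; ring) hC hC0 hd₃ (fun q hq h h' => by
      rcases h' with h' | h'
      · simp [gac q hq h' h]
      · simp [gbc q hq h' h])
    simpa using this
  have hdd : IsSquare (d₁ * d₂ * d₃) := by
    have h : A * B * C ∣ n := by
      rw [← Nat.pow_dvd_pow_iff two_ne_zero, ← hsq, ← hA, ← hB, ← hC]
      exact ⟨d₁ * d₂ * d₃, by ring⟩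
    obtain ⟨m, rfl⟩ := h
    refine ⟨m, ?_⟩
    have hne : (A * B * C) ^ 2 ≠ 0 := pow_ne_zero 2 (mul_ne_zero (mul_ne_zero hA0 hB0) hC0)
    apply mul_left_cancel₀ hne
    rw [← hA, ← hB, ← hC] at hsq
    linear_combination hsq
  have hcases : ∀ x ∈ ([1, 3, 5, 15] : List ℕ), ∀ y ∈ ([1, 2, 3, 6] : List ℕ),
      ∀ z ∈ ([1, 2, 5, 10] : List ℕ), (∃ r ∈ List.range 31, x * y * z = r * r) →
      (x, y, z) ∈ ([(1, 2, 2), (3, 3, 1), (3, 6, 2), (5, 2, 10), (15, 3, 5), (15, 6, 10)] :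
        List (ℕ × ℕ × ℕ)) ∨ (x, y, z) = (1, 1, 1) ∨ (x, y, z) = (5, 1, 5) := by
    decide
  have m1 : d₁ ∈ ([1, 3, 5, 15] : List ℕ) := by
    have h := Nat.mem_divisors.2 ⟨D1, by norm_num⟩
    rw [show Nat.divisors 15 = {1, 3, 5, 15} by decide] at h
    simpa using h
  have m2 : d₂ ∈ ([1, 2, 3, 6] : List ℕ) := by
    have h := Nat.mem_divisors.2 ⟨D2, by norm_num⟩
    rw [show Nat.divisors 6 = {1, 2, 3, 6} by decide] at h
    simpa using h
  have m3 : d₃ ∈ ([1, 2, 5, 10] : List ℕ) := by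
    have h := Nat.mem_divisors.2 ⟨D3, by norm_num⟩
    rw [show Nat.divisors 10 = {1, 2, 5, 10} by decide] at h
    simpa using h
  have hdd' : ∃ r ∈ List.range 31, d₁ * d₂ * d₃ = r * r := by
    obtain ⟨r, hr⟩ := hdd
    have hle : d₁ * d₂ * d₃ ≤ 15 * 6 * 10 := Nat.mul_le_mul (Nat.mul_le_mul
      (Nat.le_of_dvd (by norm_num) D1) (Nat.le_of_dvd (by norm_num) D2))
      (Nat.le_of_dvd (by norm_num) D3)
    exact ⟨r, List.mem_range.2 (by nlinarith), hr⟩
  rcases hcases d₁ m1 d₂ m2 d₃ m3 hdd' with hbad | h | h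
  · exfalso
    by_cases h122 : (d₁, d₂, d₃) = (1, 2, 2)
    · simp only [Prod.mk.injEq] at h122
      obtain ⟨rfl, rfl, rfl⟩ := h122
      have e1 := congrArg (Nat.cast : ℕ → ZMod 5) hb
      have e2 := congrArg (Nat.cast : ℕ → ZMod 5) ha
      rw [← hB, ← hC] at e1
      rw [← hA, ← hC] at e2
      push_cast at e1 e2
      refine zmod5_class (e : ZMod 5) (A : ZMod 5) (B : ZMod 5) (C : ZMod 5) ?_
        (by linear_combination e1) (by linear_combination e2)
      by_contra hcon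
      simp only [not_or, not_not, ZMod.natCast_eq_zero_iff] at hcon
      exact hqe 5 Nat.prime_five (hA ▸ (dvd_mul_of_dvd_left (dvd_pow hcon.2 two_ne_zero) _)) hcon.1
    · have e1 := congrArg (Nat.cast : ℕ → ZMod 8) hb
      have e2 := congrArg (Nat.cast : ℕ → ZMod 8) ha
      rw [← hB, ← hC] at e1
      rw [← hA, ← hC] at e2
      push_cast at e1 e2
      refine zmod8_classes _ hbad h122 _ (zmod8_sq e) _ (zmod8_sq A) _ (zmod8_sq B) _ (zmod8_sq C)
        ?_ (by linear_combination e1) (by linear_combination e2)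
      have ev : ∀ m : ℕ, (4 : ZMod 8) * (m : ZMod 8) = 0 → 2 ∣ m := fun m hm => by
        have : ((4 * m : ℕ) : ZMod 8) = 0 := by push_cast; exact hm
        rw [ZMod.natCast_eq_zero_iff] at this
        omega
      by_contra hcon
      simp only [not_or, not_not] at hcon
      refine hqe 2 Nat.prime_two (ev a ?_) (Nat.prime_two.dvd_of_dvd_pow (ev (e ^ 2) ?_))
      · rw [← hA]; push_cast; linear_combination hcon.2
      · push_cast; exact hcon.1
  · simp only [Prod.mk.injEq] at h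
    obtain ⟨rfl, rfl, rfl⟩ := h
    exact .inl ⟨⟨A, by rw [← hA]; ring⟩, ⟨B, by rw [← hB]; ring⟩, ⟨C, by rw [← hC]; ring⟩⟩
  · simp only [Prod.mk.injEq] at h
    obtain ⟨rfl, rfl, rfl⟩ := h
    exact .inr ⟨A, B, C, by rw [← hA]; ring, by rw [← hB]; ring, by rw [← hC]; ring⟩

lemma sq_of_mul_sq {u v s : ℚ} (hv : IsSquare v) (hv0 : v ≠ 0) (h : v * u = s ^ 2) :
    IsSquare u := by
  obtain ⟨r, rfl⟩ := hv
  have hr : r ≠ 0 := left_ne_zero_of_mul hv0
  exact ⟨s / r, by field_simp; linear_combination h⟩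

lemma gt_25 {z w : ℚ} (hw : w ^ 2 = z * (z - 9) * (z - 25)) (hz : 25 < z) : z = 45 := by
  -- the denominator of `z` is a square
  set d : ℕ := z.den with hd
  have hd0 : 0 < d := z.den_pos
  have hdQ : (d : ℚ) ≠ 0 := by exact_mod_cast hd0.ne'
  have hzd : z * (d : ℚ) = z.num := Rat.mul_den_eq_num z
  obtain ⟨e, he⟩ : ∃ e : ℕ, d = e ^ 2 := by
    set N : ℤ := z.num * (z.num - 9 * d) * (z.num - 25 * d) with hN
    have hq : w ^ 2 = (N : ℚ) / ((d : ℤ) ^ 3 : ℤ) := by
      rw [hN]; push_cast; rw [← hzd, hw]; field_simp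
    have hco : IsCoprime z.num (d : ℤ) := Int.isCoprime_iff_gcd_eq_one.2 z.reduced
    have hcoN : IsCoprime N (d : ℤ) := by
      refine (hco.mul_left ?_).mul_left ?_
      · simpa [sub_eq_add_neg] using hco.add_mul_right_left (-9)
      · simpa [sub_eq_add_neg] using hco.add_mul_right_left (-25)
    have hden := Rat.den_div_eq_of_coprime (a := N) (b := (d : ℤ) ^ 3) (by positivity)
      (Int.isCoprime_iff_gcd_eq_one.1 hcoN.pow_right)
    rw [← hq, Rat.den_pow] at hden
    have hden' : w.den ^ 2 = d ^ 3 := by exact_mod_cast hden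
    obtain ⟨e, he⟩ : d ∣ w.den :=
      (Nat.pow_dvd_pow_iff two_ne_zero).1 ⟨d, by rw [hden']; ring⟩
    refine ⟨e, Nat.eq_of_mul_eq_mul_left (pow_pos hd0 2) ?_⟩
    rw [he] at hden'
    rw [← mul_pow, hden']; ring
  have he0 : 0 < e := Nat.pos_of_ne_zero (by rintro rfl; simp at he; omega)
  have heQ : (e : ℚ) ≠ 0 := by exact_mod_cast he0.ne'
  have hdE : (d : ℚ) = (e : ℚ) ^ 2 := by exact_mod_cast he
  have hgt : 25 * (d : ℤ) < z.num := by
    have : (25 : ℚ) * d < z.num := by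
      rw [← hzd]; exact mul_lt_mul_of_pos_right hz (by exact_mod_cast hd0)
    exact_mod_cast this
  obtain ⟨c, hcz⟩ : ∃ c : ℕ, (c : ℤ) = z.num - 25 * d := ⟨_, Int.toNat_of_nonneg (by omega)⟩
  have hc0 : 0 < c := by omega
  have hza : z.num = ((c + 25 * e ^ 2 : ℕ) : ℤ) := by
    rw [← he]; push_cast; omega
  have hcQ : (c : ℚ) = (z - 25) * (e : ℚ) ^ 2 := by
    rw [← hdE]
    have : (c : ℚ) = z.num - 25 * d := by exact_mod_cast hcz
    linear_combination this - hzd
  have hco : Nat.Coprime (c + 25 * e ^ 2) e := by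
    have := z.reduced
    rw [← hd, he, hza, Int.natAbs_natCast] at this
    exact (Nat.coprime_pow_right_iff two_pos _ _).1 this
  obtain ⟨n, hn⟩ : IsSquare ((c + 25 * e ^ 2) * (c + 16 * e ^ 2) * c) := by
    rw [← Rat.isSquare_natCast_iff]
    refine ⟨w * (e : ℚ) ^ 3, ?_⟩
    push_cast
    rw [hcQ]
    linear_combination -(e : ℚ) ^ 6 * hw
  rcases classes hc0 he0 hco rfl rfl (hn.trans (sq n).symm) with
    ⟨h1, h2, h3⟩ | ⟨A, B, C, hA, hB, hC⟩
  · exfalso
    have := three_squares (z := z) ?_ ?_ ?_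
    · linarith
    · rw [← Rat.isSquare_natCast_iff] at h1
      obtain ⟨r, hr⟩ := h1
      push_cast at hr
      exact ⟨r / e, by field_simp; linear_combination hr - hcQ⟩
    · rw [← Rat.isSquare_natCast_iff] at h2
      obtain ⟨r, hr⟩ := h2
      push_cast at hr
      exact ⟨r / e, by field_simp; linear_combination hr - hcQ⟩
    · rw [← Rat.isSquare_natCast_iff] at h3
      obtain ⟨r, hr⟩ := h3
      exact ⟨r / e, by field_simp; linear_combination hr - hcQ⟩
  · by_contra h45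
    have h0 : z - 45 ≠ 0 := sub_ne_zero.2 h45
    set l : ℚ := (w - 180) / (z - 45) with hl'
    have hl : l * (z - 45) = w - 180 := div_mul_cancel₀ _ h0
    set z' : ℚ := l ^ 2 - z - 11 with hz'
    have key : ∀ r : ℚ, (r = 0 ∨ r = 9 ∨ r = 25) →
        (z - r) * (45 - r) * (z' - r) = (w - l * (z - r)) ^ 2 := fun r hr => by
      apply mul_left_cancel₀ h0
      rcases hr with rfl | rfl | rfl
      · linear_combination (-(z - 0) * (l * (z - 45) - w - 180)) * hl + (45 - 0) * hw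
      · linear_combination (-(z - 9) * (l * (z - 45) - w - 180)) * hl + (45 - 9) * hw
      · linear_combination (-(z - 25) * (l * (z - 45) - w - 180)) * hl + (45 - 25) * hw
    have eA : z * (e : ℚ) ^ 2 = 5 * (A : ℚ) ^ 2 := by
      have : ((c + 25 * e ^ 2 : ℕ) : ℚ) = ((5 * A ^ 2 : ℕ) : ℚ) := congrArg _ hA
      push_cast at this
      linear_combination this - hcQ
    have eB : (z - 9) * (e : ℚ) ^ 2 = (B : ℚ) ^ 2 := by
      have : ((c + 16 * e ^ 2 : ℕ) : ℚ) = ((B ^ 2 : ℕ) : ℚ) := congrArg _ hB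
      push_cast at this
      linear_combination this - hcQ
    have eC : (z - 25) * (e : ℚ) ^ 2 = 5 * (C : ℚ) ^ 2 := by
      have : (c : ℚ) = ((5 * C ^ 2 : ℕ) : ℚ) := congrArg _ hC
      push_cast at this
      linear_combination this - hcQ
    have z25 := three_squares (z := z')
      (sq_of_mul_sq (v := (z - 0) * 45) (s := w - l * (z - 0))
        ⟨15 * A / e, by field_simp; linear_combination 45 * eA⟩
        (mul_ne_zero (by linarith) (by norm_num))
        (by linear_combination key 0 (by norm_num)))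
      (sq_of_mul_sq (v := (z - 9) * 36) (s := w - l * (z - 9))
        ⟨6 * B / e, by field_simp; linear_combination 36 * eB⟩
        (mul_ne_zero (by linarith) (by norm_num))
        (by linear_combination key 9 (by norm_num)))
      (sq_of_mul_sq (v := (z - 25) * 20) (s := w - l * (z - 25))
        ⟨10 * C / e, by field_simp; linear_combination 20 * eC⟩
        (mul_ne_zero (by linarith) (by norm_num))
        (by linear_combination key 25 (by norm_num)))
    have hw' : w - l * (z - 25) = 0 := by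
      have := key 25 (by norm_num)
      rw [z25, sub_self, mul_zero] at this
      exact pow_eq_zero_iff two_ne_zero |>.1 this.symm
    have h9 : w = 9 * (z - 25) := by
      linear_combination -(z - 45) / 20 * hw' - (z - 25) / 20 * hl
    rw [h9] at hw
    have : (z - 25) * (z - 45) ^ 2 = 0 := by linear_combination -hw
    rcases mul_eq_zero.1 this with h | h
    · linarith
    · exact h45 (sub_eq_zero.1 (pow_eq_zero_iff two_ne_zero |>.1 h))

/-- Affine rational points of `w² = z (z - 9) (z - 25)`. -/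
theorem rational_points {z w : ℚ} (hw : w ^ 2 = z * (z - 9) * (z - 25)) :
    z = 0 ∨ z = 9 ∨ z = 25 ∨ z = 5 ∨ z = 45 := by
  rcases lt_trichotomy z 25 with h | h | h
  · by_cases h0 : z = 0
    · exact .inl h0
    by_cases h9 : z = 9
    · exact .inr (.inl h9)
    have hneg : 0 < z := by
      by_contra hz
      have hz' : z < 0 := lt_of_le_of_ne (not_lt.1 hz) h0
      nlinarith [sq_nonneg w, mul_pos (neg_pos.2 hz') (show (0 : ℚ) < 9 - z by linarith),
        mul_neg_of_pos_of_neg (mul_pos (neg_pos.2 hz') (show (0 : ℚ) < 9 - z by linarith))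
          (show z - 25 < 0 by linarith)]
    have hlt9 : z < 9 := by
      by_contra hz
      have hz' : 9 < z := lt_of_le_of_ne (not_lt.1 hz) (Ne.symm h9)
      nlinarith [sq_nonneg w, mul_neg_of_pos_of_neg
        (mul_pos hneg (show (0 : ℚ) < z - 9 by linarith))
          (show z - 25 < 0 by linarith)]
    -- translate by the two-torsion point `(0, 0)`
    have hgt : 25 < 225 / z := by rw [lt_div_iff₀ hneg]; linarith
    have := gt_25 (w := 225 * w / z ^ 2) (z := 225 / z) (by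
      field_simp
      linear_combination 225 * hw) hgt
    rw [div_eq_iff h0] at this
    exact .inr (.inr (.inr (.inl (by linarith))))
  · exact .inr (.inr (.inl h))
  · exact .inr (.inr (.inr (.inr (gt_25 hw h))))

end FLTAgent.Irred35
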