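import Mathlib.AlgebraicGeometry.EllipticCurve.Affine.Point
import Mathlib.AlgebraicGeometry.EllipticCurve.DivisionPolynomial.Basic
import Mathlib.FieldTheory.IsAlgClosed.Basic

/-!
# Points of order `3` and `5`

Elementary facts on points of order `3` and `5` of a Weierstrass curve, in terms of the
`x`-coordinate and the duplication formula, with their existence over an algebraically closed
field (`exists_three`, `exists_five`).
-/

namespace FLTAgent.Irred35

open WeierstrassCurve WeierstrassCurve.Affine Polynomial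

variable {K : Type*} [Field K] [DecidableEq K] (E : WeierstrassCurve.Affine K)

/-- Denominator of the duplication formula. -/
def dupDen (x : K) : K := 4 * x ^ 3 + E.b₂ * x ^ 2 + 2 * E.b₄ * x + E.b₆

/-- Numerator of the duplication formula. -/
def dupNum (x : K) : K := x ^ 4 - E.b₄ * x ^ 2 - 2 * E.b₆ * x - E.b₈

/-- The third division polynomial, evaluated. -/
def psi3 (x : K) : K := 3 * x ^ 4 + E.b₂ * x ^ 3 + 3 * E.b₄ * x ^ 2 + 3 * E.b₆ * x + E.b₈

omit [DecidableEq K] in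
lemma psi3_eq (x : K) : psi3 E x = x * dupDen E x - dupNum E x := by
  unfold psi3 dupDen dupNum; ring

omit [DecidableEq K] in
lemma dupDen_eq {x y : K} (h : E.Equation x y) :
    dupDen E x = (2 * y + E.a₁ * x + E.a₃) ^ 2 := by
  rw [equation_iff'] at h
  unfold dupDen b₂ b₄ b₆
  linear_combination -4 * h

omit [DecidableEq K] in
lemma dupNum_eq {x y : K} (h : E.Equation x y) :
    dupNum E x = (E.a₁ * y - (3 * x ^ 2 + 2 * E.a₂ * x + E.a₄)) ^ 2
      - E.a₁ * (E.a₁ * y - (3 * x ^ 2 + 2 * E.a₂ * x + E.a₄)) * (2 * y + E.a₁ * x + E.a₃)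
      - (E.a₂ + 2 * x) * (2 * y + E.a₁ * x + E.a₃) ^ 2 := by
  rw [equation_iff'] at h
  unfold dupNum b₄ b₆ b₈
  linear_combination (E.a₁ ^ 2 + 4 * E.a₂ + 8 * x) * h

omit [DecidableEq K] in
lemma y_ne_negY_iff {x y : K} (h : E.Equation x y) : y ≠ E.negY x y ↔ dupDen E x ≠ 0 := by
  rw [dupDen_eq E h, pow_ne_zero_iff two_ne_zero, negY]
  constructor
  · intro h1 h2; exact h1 (by linear_combination h2)
  · intro h1 h2; exact h1 (by linear_combination h2)

lemma double_of_den_eq {x y : K} {h : E.Nonsingular x y} (hM : dupDen E x = 0) :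
    Point.some x y h + Point.some x y h = 0 :=
  Point.add_self_of_Y_eq (not_ne_iff.1 fun hy => (y_ne_negY_iff E h.1).1 hy hM)

lemma double_of_den_ne {x y : K} {h : E.Nonsingular x y} (hM : dupDen E x ≠ 0) :
    ∃ y', ∃ h' : E.Nonsingular (dupNum E x / dupDen E x) y',
      Point.some x y h + Point.some x y h = Point.some _ y' h' := by
  have hy := (y_ne_negY_iff E h.1).2 hM
  have hx : E.addX x x (E.slope x x y y) = dupNum E x / dupDen E x := by
    have hq : 2 * y + E.a₁ * x + E.a₃ ≠ 0 := by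
      intro h0; apply hM; rw [dupDen_eq E h.1, h0]; ring
    rw [slope_of_Y_ne rfl hy, dupNum_eq E h.1, dupDen_eq E h.1, negY, addX,
      show y - (-y - E.a₁ * x - E.a₃) = 2 * y + E.a₁ * x + E.a₃ by ring,
      show 3 * x ^ 2 + 2 * E.a₂ * x + E.a₄ - E.a₁ * y
        = -(E.a₁ * y - (3 * x ^ 2 + 2 * E.a₂ * x + E.a₄)) by ring]
    generalize 2 * y + E.a₁ * x + E.a₃ = q at hq ⊢
    generalize E.a₁ * y - (3 * x ^ 2 + 2 * E.a₂ * x + E.a₄) = p
    field_simp
    ring
  revert hx
  generalize e : E.addX x x (E.slope x x y y) = v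
  rintro rfl
  refine ⟨_, e ▸ nonsingular_add h h fun hxy => hy hxy.right, ?_⟩
  rw [Point.add_self_of_Y_ne hy]
  simp only [e]

/-- A point with nonzero double has an abscissa with nonzero `dupDen`. -/
lemma exists_double {x y : K} {h : E.Nonsingular x y}
    (h2 : Point.some x y h + Point.some x y h ≠ 0) :
    dupDen E x ≠ 0 ∧ ∃ y', ∃ h' : E.Nonsingular (dupNum E x / dupDen E x) y',
      Point.some x y h + Point.some x y h = Point.some _ y' h' := by
  have hM : dupDen E x ≠ 0 := fun hM => h2 (double_of_den_eq E hM)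
  exact ⟨hM, double_of_den_ne E hM⟩

omit [DecidableEq K] in
lemma dupDen_ne_zero_of_psi3 {x y : K} (h : E.Nonsingular x y) (h3 : psi3 E x = 0) :
    dupDen E x ≠ 0 := by
  intro hM
  have hN : dupNum E x = 0 := by
    have := psi3_eq E x
    rw [h3, hM] at this
    linear_combination this
  obtain ⟨heq, hns⟩ := (nonsingular_iff' (W := E) x y).1 h
  have hq : 2 * y + E.a₁ * x + E.a₃ = 0 := by
    rw [dupDen_eq E heq] at hM; exact pow_eq_zero_iff two_ne_zero |>.1 hM
  rw [dupNum_eq E heq, hq] at hN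
  simp only [mul_zero, sub_zero, ne_eq, OfNat.ofNat_ne_zero, not_false_eq_true, zero_pow] at hN
  rcases hns with hp | hq'
  · exact hp (pow_eq_zero_iff two_ne_zero |>.1 hN)
  · exact hq' hq

lemma three_torsion_data {x y : K} {h : E.Nonsingular x y}
    (h3 : (3 : ℕ) • Point.some x y h = 0) : psi3 E x = 0 := by
  set P := Point.some x y h
  have e : P + P = -P := by
    rw [eq_neg_iff_add_eq_zero, ← h3]; abel
  have h2 : P + P ≠ 0 := by
    rw [e, neg_ne_zero]; exact Point.some_ne_zero h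
  obtain ⟨hM, y', h', e'⟩ := exists_double E h2
  have hxx : dupNum E x / dupDen E x = x := by
    have := congrArg Point.xRep (e'.symm.trans e)
    simpa [P] using this
  rw [div_eq_iff hM] at hxx
  rw [psi3_eq, hxx]; ring

lemma five_torsion_data {x y : K} {h : E.Nonsingular x y}
    (h5 : (5 : ℕ) • Point.some x y h = 0) :
    ∃ x₂ y₂, ∃ h₂ : E.Nonsingular x₂ y₂,
      Point.some x y h + Point.some x y h = Point.some x₂ y₂ h₂ ∧ x₂ ≠ x ∧
      dupDen E x ≠ 0 ∧ dupNum E x = x₂ * dupDen E x ∧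
      dupNum E x₂ = x * dupDen E x₂ := by
  set P := Point.some x y h with hP
  have hP0 : P ≠ 0 := Point.some_ne_zero h
  have h2 : P + P ≠ 0 := fun e => hP0 (by
    have : (5 : ℕ) • P = P + (2 : ℕ) • (P + P) := by abel
    rw [h5, e, smul_zero, add_zero] at this
    exact this.symm)
  obtain ⟨hM, y₂, h₂, e⟩ := exists_double E h2
  have e4 : (P + P) + (P + P) = -P := by
    rw [eq_neg_iff_add_eq_zero, ← h5]; abel
  have h4 : (P + P) + (P + P) ≠ 0 := by rw [e4, neg_ne_zero]; exact hP0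
  rw [e] at h4
  obtain ⟨hM2, y₄, h₄, e'⟩ := exists_double E h4
  refine ⟨_, y₂, h₂, e, ?_, hM, (div_mul_cancel₀ _ hM).symm, ?_⟩
  · intro hx
    have hor : Point.some _ y₂ h₂ = P ∨ Point.some _ y₂ h₂ = -P := Point.X_eq_iff.1 hx
    rw [← e] at hor
    rcases hor with h1 | h1
    · exact hP0 (left_eq_add.1 h1.symm)
    · apply hP0
      rw [eq_neg_iff_add_eq_zero] at h1
      have : P = (2 : ℕ) • (P + P + P) - (5 : ℕ) • P := by abel
      rw [h1, h5, smul_zero, sub_zero] at this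
      exact this
  · rw [e, e'] at e4
    have hxx := congrArg Point.xRep e4
    simp only [Point.xRep_neg, hP, Point.xRep_some, Matrix.vecCons_inj, and_true] at hxx
    rw [div_eq_iff hM2] at hxx
    exact hxx

/-- A polynomial vanishing at the abscissae of the nonzero points of order dividing `5`. -/
noncomputable def fivePoly : K[X] :=
  (X ^ 4 - C E.b₄ * X ^ 2 - C (2 * E.b₆) * X - C E.b₈) ^ 4
    - C E.b₄ * (X ^ 4 - C E.b₄ * X ^ 2 - C (2 * E.b₆) * X - C E.b₈) ^ 2
        * (C 4 * X ^ 3 + C E.b₂ * X ^ 2 + C (2 * E.b₄) * X + C E.b₆) ^ 2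
    - C (2 * E.b₆) * (X ^ 4 - C E.b₄ * X ^ 2 - C (2 * E.b₆) * X - C E.b₈)
        * (C 4 * X ^ 3 + C E.b₂ * X ^ 2 + C (2 * E.b₄) * X + C E.b₆) ^ 3
    - C E.b₈ * (C 4 * X ^ 3 + C E.b₂ * X ^ 2 + C (2 * E.b₄) * X + C E.b₆) ^ 4
    - X * (C 4 * (X ^ 4 - C E.b₄ * X ^ 2 - C (2 * E.b₆) * X - C E.b₈) ^ 3
          * (C 4 * X ^ 3 + C E.b₂ * X ^ 2 + C (2 * E.b₄) * X + C E.b₆)
        + C E.b₂ * (X ^ 4 - C E.b₄ * X ^ 2 - C (2 * E.b₆) * X - C E.b₈) ^ 2
          * (C 4 * X ^ 3 + C E.b₂ * X ^ 2 + C (2 * E.b₄) * X + C E.b₆) ^ 2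
        + C (2 * E.b₄) * (X ^ 4 - C E.b₄ * X ^ 2 - C (2 * E.b₆) * X - C E.b₈)
          * (C 4 * X ^ 3 + C E.b₂ * X ^ 2 + C (2 * E.b₄) * X + C E.b₆) ^ 3
        + C E.b₆ * (C 4 * X ^ 3 + C E.b₂ * X ^ 2 + C (2 * E.b₄) * X + C E.b₆) ^ 4)

omit [DecidableEq K] in
lemma fivePoly_natDegree [CharZero K] : (fivePoly E).natDegree = 16 := by
  unfold fivePoly
  compute_degree!

omit [DecidableEq K] in
lemma fivePoly_eval (x x₂ : K) (h : dupNum E x = x₂ * dupDen E x) :
    (fivePoly E).eval x = dupDen E x ^ 4 * (dupNum E x₂ - x * dupDen E x₂) := by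
  have hN : x ^ 4 - E.b₄ * x ^ 2 - 2 * E.b₆ * x - E.b₈ = x₂ * dupDen E x := h
  simp only [fivePoly, eval_sub, eval_add, eval_mul, eval_pow, eval_C, eval_X]
  rw [hN]
  unfold dupDen dupNum
  ring

/-- The abscissa of an affine point, as a root of a polynomial, bounds the number of points. -/
lemma card_le {S : Set E.Point} {R : K[X]} (hR : R ≠ 0)
    (hS : ∀ x y, ∀ h : E.Nonsingular x y, Point.some x y h ∈ S → R.eval x = 0) :
    S.Finite ∧ Nat.card S ≤ 2 * R.natDegree + 1 := by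
  classical
  let y₀ : K → K := fun x => if hx : ∃ y, E.Equation x y then hx.choose else 0
  let T := Option ({x // x ∈ R.roots.toFinset} × Bool)
  let f : S → T := fun P => match P with
    | ⟨Point.zero, _⟩ => none
    | ⟨Point.some x y h, hP⟩ => some (⟨x, Multiset.mem_toFinset.2
        ((mem_roots hR).2 (hS x y h hP))⟩, decide (y = y₀ x))
  have hf : Function.Injective f := by
    rintro ⟨P, hP⟩ ⟨Q, hQ⟩ e
    match P, Q with
    | .zero, .zero => rfl
    | .zero, .some .. => simp [f] at e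
    | .some .., .zero => simp [f] at e
    | .some x y h, .some x' y' h' =>
      replace e : some ((⟨x, _⟩ : {x // x ∈ R.roots.toFinset}), decide (y = y₀ x)) =
          some (⟨x', _⟩, decide (y' = y₀ x')) := e
      obtain ⟨e1, e⟩ := Prod.mk.injEq .. ▸ Option.some.inj e
      obtain rfl : x = x' := congrArg Subtype.val e1
      rw [decide_eq_decide] at e
      have h0 : E.Equation x (y₀ x) := by
        have hx : ∃ y, E.Equation x y := ⟨y, h.1⟩
        simp only [y₀, dif_pos hx]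
        exact hx.choose_spec
      have : y = y' := by
        by_cases hy : y = y₀ x
        · rw [hy, e.1 hy]
        · rw [(Y_eq_of_X_eq h.1 h0 rfl).resolve_left hy,
            (Y_eq_of_X_eq h'.1 h0 rfl).resolve_left (fun h => hy (e.2 h))]
      subst this
      rfl
  have : Finite S := Finite.of_injective f hf
  refine ⟨Set.toFinite S, (Nat.card_le_card_of_injective f hf).trans ?_⟩
  simp only [T, Nat.card_eq_fintype_card, Fintype.card_option, Fintype.card_prod,
    Fintype.card_coe, Fintype.card_bool]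
  have := R.roots.toFinset_card_le.trans R.card_roots'
  omega

/-- Existence of a point of order `3`. -/
lemma exists_three [IsAlgClosed K] [CharZero K] (hΔ : E.Δ ≠ 0) :
    ∃ P : E.Point, P ≠ 0 ∧ (3 : ℕ) • P = 0 := by
  obtain ⟨x, hx⟩ := IsAlgClosed.exists_root
    (C 3 * X ^ 4 + C E.b₂ * X ^ 3 + C (3 * E.b₄) * X ^ 2 + C (3 * E.b₆) * X + C E.b₈)
    (by
      rw [show degree (C 3 * X ^ 4 + C E.b₂ * X ^ 3 + C (3 * E.b₄) * X ^ 2
        + C (3 * E.b₆) * X + C E.b₈) = 4 by compute_degree!]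
      norm_num)
  have hx3 : psi3 E x = 0 := by
    simpa [psi3, IsRoot] using hx
  obtain ⟨y, hy⟩ := IsAlgClosed.exists_root
    (C 1 * X ^ 2 + C (E.a₁ * x + E.a₃) * X - C (x ^ 3 + E.a₂ * x ^ 2 + E.a₄ * x + E.a₆))
    (by
      rw [show degree (C 1 * X ^ 2 + C (E.a₁ * x + E.a₃) * X
        - C (x ^ 3 + E.a₂ * x ^ 2 + E.a₄ * x + E.a₆)) = 2 by compute_degree!]
      norm_num)
  have hE : E.Equation x y := by
    rw [equation_iff']
    simp only [IsRoot, eval_sub, eval_add, eval_mul, eval_pow, eval_C, eval_X] at hy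
    linear_combination hy
  have h := (equation_iff_nonsingular_of_Δ_ne_zero (W := E) hΔ).1 hE
  have hM := dupDen_ne_zero_of_psi3 E h hx3
  obtain ⟨y', h', e⟩ := double_of_den_ne E (h := h) hM
  refine ⟨Point.some x y h, Point.some_ne_zero h, ?_⟩
  have hxx : dupNum E x / dupDen E x = x := by
    rw [div_eq_iff hM]
    linear_combination -(psi3_eq E x).symm.trans hx3
  have : Point.some x y h + Point.some x y h = Point.some x y h ∨
      Point.some x y h + Point.some x y h = -Point.some x y h := by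
    rw [e]; exact Point.X_eq_iff.1 hxx
  rcases this with h1 | h1
  · exact absurd (left_eq_add.1 h1.symm) (Point.some_ne_zero h)
  · rw [eq_neg_iff_add_eq_zero] at h1
    rw [← h1]; abel

omit [DecidableEq K] in
lemma dupDen_mul_cube [CharZero K] (x x₂ : K) (h : dupNum E x = x₂ * dupDen E x) :
    dupDen E x₂ * dupDen E x ^ 3 = (E.preΨ₄.eval x) ^ 2 := by
  have hb := E.b_relation
  have hb8 : E.b₈ = (E.b₂ * E.b₆ - E.b₄ ^ 2) / 4 := by field_simp; linear_combination hb
  have : dupDen E x₂ * dupDen E x ^ 3 =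
      4 * (dupNum E x) ^ 3 + E.b₂ * (dupNum E x) ^ 2 * dupDen E x
        + 2 * E.b₄ * dupNum E x * dupDen E x ^ 2 + E.b₆ * dupDen E x ^ 3 := by
    rw [h]; unfold dupDen; ring
  rw [this]
  simp only [preΨ₄, eval_add, eval_mul, eval_pow, eval_C, eval_X, eval_ofNat]
  unfold dupDen dupNum
  rw [hb8]
  ring

omit [DecidableEq K] in
lemma fivePoly_factor [CharZero K] (x : K) :
    (fivePoly E).eval x = -(psi3 E x *
      ((E.preΨ₄.eval x) * dupDen E x ^ 2 - psi3 E x ^ 3)) := by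
  have hb := E.b_relation
  have hb8 : E.b₈ = (E.b₂ * E.b₆ - E.b₄ ^ 2) / 4 := by field_simp; linear_combination hb
  simp only [fivePoly, preΨ₄, eval_sub, eval_add, eval_mul, eval_pow, eval_C, eval_X, eval_ofNat]
  unfold dupDen psi3
  rw [hb8]
  ring

/-- Existence of a point of order `5`. -/
lemma exists_five [IsAlgClosed K] [CharZero K] (hΔ : E.Δ ≠ 0) :
    ∃ P : E.Point, P ≠ 0 ∧ (5 : ℕ) • P = 0 := by
  obtain ⟨x, hx⟩ := IsAlgClosed.exists_root
    ((C 2 * X ^ 6 + C E.b₂ * X ^ 5 + C (5 * E.b₄) * X ^ 4 + C (10 * E.b₆) * X ^ 3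
        + C (10 * E.b₈) * X ^ 2 + C (E.b₂ * E.b₈ - E.b₄ * E.b₆) * X
        + C (E.b₄ * E.b₈ - E.b₆ ^ 2))
      * (C 4 * X ^ 3 + C E.b₂ * X ^ 2 + C (2 * E.b₄) * X + C E.b₆) ^ 2
      - (C 3 * X ^ 4 + C E.b₂ * X ^ 3 + C (3 * E.b₄) * X ^ 2 + C (3 * E.b₆) * X + C E.b₈) ^ 3)
    (by
      refine fun h0 => ?_
      have := natDegree_eq_zero_iff_degree_le_zero.2 h0.le
      rw [show natDegree ((C 2 * X ^ 6 + C E.b₂ * X ^ 5 + C (5 * E.b₄) * X ^ 4
          + C (10 * E.b₆) * X ^ 3 + C (10 * E.b₈) * X ^ 2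
          + C (E.b₂ * E.b₈ - E.b₄ * E.b₆) * X + C (E.b₄ * E.b₈ - E.b₆ ^ 2))
          * (C 4 * X ^ 3 + C E.b₂ * X ^ 2 + C (2 * E.b₄) * X + C E.b₆) ^ 2
          - (C 3 * X ^ 4 + C E.b₂ * X ^ 3 + C (3 * E.b₄) * X ^ 2 + C (3 * E.b₆) * X
              + C E.b₈) ^ 3) = 12 by compute_degree!] at this
      omega)
  have hQ : E.preΨ₄.eval x * dupDen E x ^ 2 - psi3 E x ^ 3 = 0 := by
    simp only [IsRoot, eval_sub, eval_add, eval_mul, eval_pow, eval_C, eval_X] at hx
    simp only [preΨ₄, eval_add, eval_mul, eval_pow, eval_C, eval_X, eval_ofNat]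
    unfold dupDen psi3
    linear_combination hx
  obtain ⟨y, hy⟩ := IsAlgClosed.exists_root
    (C 1 * X ^ 2 + C (E.a₁ * x + E.a₃) * X - C (x ^ 3 + E.a₂ * x ^ 2 + E.a₄ * x + E.a₆))
    (by
      rw [show degree (C 1 * X ^ 2 + C (E.a₁ * x + E.a₃) * X
        - C (x ^ 3 + E.a₂ * x ^ 2 + E.a₄ * x + E.a₆)) = 2 by compute_degree!]
      norm_num)
  have hE : E.Equation x y := by
    rw [equation_iff']
    simp only [IsRoot, eval_sub, eval_add, eval_mul, eval_pow, eval_C, eval_X] at hy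
    linear_combination hy
  have h := (equation_iff_nonsingular_of_Δ_ne_zero (W := E) hΔ).1 hE
  have hM : dupDen E x ≠ 0 := by
    intro hM
    rw [hM, zero_pow two_ne_zero, mul_zero, zero_sub, neg_eq_zero] at hQ
    exact dupDen_ne_zero_of_psi3 E h (pow_eq_zero_iff three_ne_zero |>.1 hQ) hM
  obtain ⟨y₂, h₂, e⟩ := double_of_den_ne E (h := h) hM
  set x₂ := dupNum E x / dupDen E x with hx₂
  have hN : dupNum E x = x₂ * dupDen E x := (div_mul_cancel₀ _ hM).symm
  have hne : x₂ ≠ x := by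
    intro hxx
    have h3 : psi3 E x = 0 := by rw [psi3_eq, hN, hxx]; ring
    rw [h3, zero_pow three_ne_zero, sub_zero] at hQ
    have h4 := (mul_eq_zero.1 hQ).resolve_right (pow_ne_zero 2 hM)
    have := dupDen_mul_cube E x x₂ hN
    rw [h4, hxx, zero_pow two_ne_zero, mul_eq_zero] at this
    exact this.elim hM (pow_ne_zero 3 hM)
  have hM2 : dupDen E x₂ ≠ 0 := by
    intro h0
    have := dupDen_mul_cube E x x₂ hN
    rw [h0, zero_mul, eq_comm, pow_eq_zero_iff two_ne_zero] at this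
    rw [this, zero_mul, zero_sub, neg_eq_zero] at hQ
    apply hne
    have h3 := pow_eq_zero_iff three_ne_zero |>.1 hQ
    rw [psi3_eq, hN, ← sub_mul, mul_eq_zero] at h3
    exact (sub_eq_zero.1 (h3.resolve_right hM)).symm
  have hN2 : dupNum E x₂ = x * dupDen E x₂ := by
    have := fivePoly_factor E x
    rw [hQ, mul_zero, neg_zero, fivePoly_eval E x x₂ hN, mul_eq_zero] at this
    exact sub_eq_zero.1 (this.resolve_left (pow_ne_zero 4 hM))
  obtain ⟨y₄, h₄, e'⟩ := double_of_den_ne E (h := h₂) hM2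
  refine ⟨Point.some x y h, Point.some_ne_zero h, ?_⟩
  have hxx : dupNum E x₂ / dupDen E x₂ = x := by rw [div_eq_iff hM2]; exact hN2
  have hor := Point.X_eq_iff (h₁ := h₄) (h₂ := h) |>.1 hxx
  rw [← e', ← e] at hor
  rcases hor with h1 | h1
  · exfalso
    set P := Point.some x y h
    have h3 : P + P + P = 0 := by
      have : P + (P + P + P) = P + 0 := by rw [add_zero]; convert h1 using 1; abel
      exact add_left_cancel this
    apply hne
    have e2 : P + P = -P := eq_neg_iff_add_eq_zero.2 h3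
    rw [e] at e2
    have := congrArg Point.xRep e2
    simpa [P] using this
  · rw [eq_neg_iff_add_eq_zero] at h1
    rw [← h1]; abel

end FLTAgent.Irred35
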